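import Mathlib

set_option autoImplicit false

namespace Fermat.Agent.S51

/-- Core factorisation step of the descent: from `c' * d = a * b` and
`a^2 + b^2 = 81 c'^2 + d^2` (with `a, b` coprime of opposite parity) we get a
new solution of the two-triangle system whose `e` is bounded by `max |a| |b|`. -/
theorem descent_key (a b c' d : ℤ) (hab : IsCoprime a b) (hne : a * b ≠ 0)
    (hpar : a % 2 = 0 ∧ b % 2 = 1 ∨ a % 2 = 1 ∧ b % 2 = 0)
    (hprod : c' * d = a * b) (hsum : a ^ 2 + b ^ 2 = 81 * c' ^ 2 + d ^ 2) :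
    ∃ P' Q' R' e' : ℤ, e' ≠ 0 ∧ e'.natAbs ≤ max a.natAbs b.natAbs ∧
      P' ^ 2 = Q' ^ 2 + e' ^ 2 ∧ P' ^ 2 = R' ^ 2 + 81 * e' ^ 2 := by
  have ha0 : a ≠ 0 := left_ne_zero_of_mul hne
  have hb0 : b ≠ 0 := right_ne_zero_of_mul hne
  -- factor a = a₁ a₂ with a₁ ∣ c', a₂ ∣ d
  obtain ⟨a₁, a₂, ⟨b₁, hc'⟩, ⟨b₂, hd⟩, ha⟩ :=
    exists_dvd_and_dvd_of_dvd_mul (show a ∣ c' * d from ⟨b, hprod⟩)
  have ha₁0 : a₁ ≠ 0 := by rintro rfl; simp at ha; exact ha0 ha
  have ha₂0 : a₂ ≠ 0 := by rintro rfl; simp at ha; exact ha0 ha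
  have hb : b = b₁ * b₂ := by
    have h1 : a * b = a * (b₁ * b₂) := by
      rw [← hprod, hc', hd, ha]; ring
    exact mul_left_cancel₀ ha0 h1
  have hb₁0 : b₁ ≠ 0 := by rintro rfl; simp at hb; exact hb0 hb
  have hb₂0 : b₂ ≠ 0 := by rintro rfl; simp at hb; exact hb0 hb
  subst ha hb hc' hd
  have hcop12 : IsCoprime a₁ b₂ := (hab.of_mul_left_left).of_mul_right_right
  have hcop21 : IsCoprime a₂ b₁ := (hab.of_mul_left_right).of_mul_right_left
  -- main relation
  have hrel : a₁ ^ 2 * (a₂ ^ 2 - 81 * b₁ ^ 2) = b₂ ^ 2 * (a₂ ^ 2 - b₁ ^ 2) := by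
    linear_combination hsum
  have hdvd : a₁ ^ 2 ∣ a₂ ^ 2 - b₁ ^ 2 := by
    have h1 : a₁ ^ 2 ∣ b₂ ^ 2 * (a₂ ^ 2 - b₁ ^ 2) := ⟨_, hrel.symm⟩
    exact (hcop12.pow (m := 2) (n := 2)).dvd_of_dvd_mul_left h1
  obtain ⟨k, hU⟩ := hdvd
  have hV : a₂ ^ 2 - 81 * b₁ ^ 2 = b₂ ^ 2 * k := by
    have h1 : a₁ ^ 2 * (a₂ ^ 2 - 81 * b₁ ^ 2) = a₁ ^ 2 * (b₂ ^ 2 * k) := by
      rw [hrel, hU]; ring
    exact mul_left_cancel₀ (pow_ne_zero 2 ha₁0) h1
  -- k divides 80
  have hk80 : k ∣ 80 := by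
    obtain ⟨s, t, hst⟩ := (hcop21.pow (m := 2) (n := 2))
    refine ⟨s * (81 * a₁ ^ 2 - b₂ ^ 2) + t * (a₁ ^ 2 - b₂ ^ 2), ?_⟩
    linear_combination (-80 : ℤ) * hst + (81 * s + t) * hU - (s + t) * hV
  have hk0 : k ≠ 0 := by
    rintro rfl
    simp at hk80
  -- 2-adic restriction: if k is even then 16 ∣ k
  have h16 : (2 : ℤ) ∣ k → (16 : ℤ) ∣ k := by
    intro h2
    -- a₂, b₁ are both odd
    have hU2 : (2 : ℤ) ∣ a₂ ^ 2 - b₁ ^ 2 := by rw [hU]; exact Dvd.dvd.mul_left h2 _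
    have ha₂odd : a₂ % 2 = 1 := by
      rcases Int.emod_two_eq_zero_or_one a₂ with h | h
      · exfalso
        have h2a : (2 : ℤ) ∣ a₂ := Int.dvd_of_emod_eq_zero h
        have h2b : (2 : ℤ) ∣ b₁ ^ 2 := by
          have : (2 : ℤ) ∣ a₂ ^ 2 := Dvd.dvd.pow h2a (by norm_num)
          have := Int.dvd_sub this hU2
          simpa using this
        have h2b' : (2 : ℤ) ∣ b₁ := Int.prime_two.dvd_of_dvd_pow h2b
        have := hcop21.isUnit_of_dvd' h2a h2b'
        exact absurd this (by decide)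
      · exact h
    have hb₁odd : b₁ % 2 = 1 := by
      rcases Int.emod_two_eq_zero_or_one b₁ with h | h
      · exfalso
        have h2b : (2 : ℤ) ∣ b₁ := Int.dvd_of_emod_eq_zero h
        have h2a : (2 : ℤ) ∣ a₂ ^ 2 := by
          have : (2 : ℤ) ∣ b₁ ^ 2 := Dvd.dvd.pow h2b (by norm_num)
          have := Int.dvd_add hU2 this
          simpa using this
        have h2a' : (2 : ℤ) ∣ a₂ := Int.prime_two.dvd_of_dvd_pow h2a
        have := hcop21.isUnit_of_dvd' h2a' h2b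
        exact absurd this (by decide)
      · exact h
    -- exactly one of a₁, b₂ is even
    have hpar' : a₁ % 2 = 0 ∧ b₂ % 2 = 1 ∨ a₁ % 2 = 1 ∧ b₂ % 2 = 0 := by
      have e1 : (a₁ * a₂) % 2 = a₁ % 2 := by
        rw [Int.mul_emod, ha₂odd]; simp
      have e2 : (b₁ * b₂) % 2 = b₂ % 2 := by
        rw [Int.mul_emod, hb₁odd]; simp
      rw [e1, e2] at hpar
      exact hpar
    -- k * (a₁^2 - b₂^2) = 80 * b₁^2
    have hdiff : k * (a₁ ^ 2 - b₂ ^ 2) = 80 * b₁ ^ 2 := by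
      linear_combination hV - hU
    have hodd1 : (a₁ ^ 2 - b₂ ^ 2) % 2 = 1 := by
      rcases hpar' with ⟨h1, h2⟩ | ⟨h1, h2⟩
      · have : a₁ ^ 2 % 2 = 0 := by rw [pow_two, Int.mul_emod, h1]; simp
        have : b₂ ^ 2 % 2 = 1 := by rw [pow_two, Int.mul_emod, h2]; simp
        omega
      · have : a₁ ^ 2 % 2 = 1 := by rw [pow_two, Int.mul_emod, h1]; simp
        have : b₂ ^ 2 % 2 = 0 := by rw [pow_two, Int.mul_emod, h2]; simp
        omega
    have hcop16 : IsCoprime (16 : ℤ) (a₁ ^ 2 - b₂ ^ 2) := by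
      have : IsCoprime (2 : ℤ) (a₁ ^ 2 - b₂ ^ 2) := by
        rw [Int.isCoprime_iff_gcd_eq_one]
        have := Int.emod_emod_of_dvd (a₁ ^ 2 - b₂ ^ 2) (dvd_refl (2 : ℤ))
        rw [Int.gcd_comm, ← Int.gcd_emod, hodd1]; simp
      have h := this.pow_left (m := 4)
      norm_num at h
      exact h
    have h16dvd : (16 : ℤ) ∣ k * (a₁ ^ 2 - b₂ ^ 2) := by
      rw [hdiff]; exact ⟨5 * b₁ ^ 2, by ring⟩
    exact hcop16.dvd_of_dvd_mul_right h16dvd
  -- enumerate k
  have hkabs : k.natAbs ∈ Nat.divisors 80 := by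
    rw [Nat.mem_divisors]
    refine ⟨?_, by norm_num⟩
    have := Int.natAbs_dvd_natAbs.mpr hk80
    simpa using this
  have hdivs : Nat.divisors 80 = {1, 2, 4, 5, 8, 10, 16, 20, 40, 80} := by decide
  rw [hdivs] at hkabs
  simp only [Finset.mem_insert, Finset.mem_singleton] at hkabs
  have habs₁ : a₁.natAbs ≤ (a₁ * a₂).natAbs :=
    Nat.le_of_dvd (Int.natAbs_pos.mpr ha0) (Int.natAbs_dvd_natAbs.mpr (dvd_mul_right _ _))
  have habs₂ : a₂.natAbs ≤ (a₁ * a₂).natAbs :=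
    Nat.le_of_dvd (Int.natAbs_pos.mpr ha0) (Int.natAbs_dvd_natAbs.mpr (dvd_mul_left _ _))
  have hbbs₁ : b₁.natAbs ≤ (b₁ * b₂).natAbs :=
    Nat.le_of_dvd (Int.natAbs_pos.mpr hb0) (Int.natAbs_dvd_natAbs.mpr (dvd_mul_right _ _))
  have hbbs₂ : b₂.natAbs ≤ (b₁ * b₂).natAbs :=
    Nat.le_of_dvd (Int.natAbs_pos.mpr hb0) (Int.natAbs_dvd_natAbs.mpr (dvd_mul_left _ _))
  have hkcases : k = 1 ∨ k = -1 ∨ k = 5 ∨ k = -5 ∨ k = 16 ∨ k = -16 ∨ k = 80 ∨ k = -80 := by
    have hk' : k = k.natAbs ∨ k = -(k.natAbs : ℤ) := Int.natAbs_eq k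
    have h2or : ¬ (2 : ℤ) ∣ k ∨ (16 : ℤ) ∣ k := by
      by_cases h : (2 : ℤ) ∣ k
      · exact Or.inr (h16 h)
      · exact Or.inl h
    rcases hkabs with h | h | h | h | h | h | h | h | h | h <;> rw [h] at hk' <;>
      rcases hk' with h' | h' <;> rcases h2or with h2 | h2 <;>
      first
        | (left; exact h')
        | (right; left; exact h')
        | (right; right; left; exact h')
        | (right; right; right; left; exact h')
        | (right; right; right; right; left; exact h')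
        | (right; right; right; right; right; left; exact h')
        | (right; right; right; right; right; right; left; exact h')
        | (right; right; right; right; right; right; right; exact h')
        | (exfalso; rw [h'] at h2; revert h2; decide)
  rcases hkcases with rfl | rfl | rfl | rfl | rfl | rfl | rfl | rfl
  · -- k = 1
    refine ⟨a₂, a₁, b₂, b₁, hb₁0, le_trans hbbs₁ (le_max_right _ _), ?_, ?_⟩ <;> linarith
  · -- k = -1
    refine ⟨9 * b₁, b₂, 9 * a₁, a₂, ha₂0, le_trans habs₂ (le_max_left _ _), ?_, ?_⟩ <;> linarith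
  · -- k = 5
    refine ⟨9 * a₁, 4 * a₂, 36 * b₁, b₂, hb₂0, le_trans hbbs₂ (le_max_right _ _), ?_, ?_⟩ <;>
      linarith
  · -- k = -5
    refine ⟨b₂, 4 * b₁, 4 * a₂, a₁, ha₁0, le_trans habs₁ (le_max_left _ _), ?_, ?_⟩ <;> linarith
  · -- k = 16
    refine ⟨a₂, 4 * a₁, 4 * b₂, b₁, hb₁0, le_trans hbbs₁ (le_max_right _ _), ?_, ?_⟩ <;> linarith
  · -- k = -16
    refine ⟨9 * b₁, 4 * b₂, 36 * a₁, a₂, ha₂0, le_trans habs₂ (le_max_left _ _), ?_, ?_⟩ <;>
      linarith
  · -- k = 80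
    refine ⟨9 * a₁, a₂, 9 * b₁, b₂, hb₂0, le_trans hbbs₂ (le_max_right _ _), ?_, ?_⟩ <;> linarith
  · -- k = -80
    refine ⟨b₂, b₁, a₂, a₁, ha₁0, le_trans habs₁ (le_max_left _ _), ?_, ?_⟩ <;> linarith

/-- A square is never `5 y^2 - 4 x^2` with `x` even and `y` odd (mod `8`). -/
theorem sq_ne_mod8 (x y z : ℤ) (hx : x % 2 = 0) (hy : y % 2 = 1)
    (h : z ^ 2 = 5 * y ^ 2 - 4 * x ^ 2) : False := by
  obtain ⟨k, rfl⟩ : ∃ k, x = 2 * k := ⟨x / 2, by omega⟩
  obtain ⟨m, rfl⟩ : ∃ m, y = 2 * m + 1 := ⟨y / 2, by omega⟩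
  obtain ⟨t, ht⟩ : ∃ t, m * (m + 1) = 2 * t := by
    have := Int.even_mul_succ_self m
    obtain ⟨t, ht⟩ := this
    exact ⟨t, by omega⟩
  have hz : z ^ 2 = 8 * (5 * t - 2 * k ^ 2) + 5 := by
    rw [h]; linear_combination 20 * ht
  have h1 : z ^ 2 % 8 = 5 := by rw [hz]; omega
  have h2 : z ^ 2 % 8 = (z % 8) ^ 2 % 8 := by
    rw [pow_two, Int.mul_emod, ← pow_two]
  rw [h2] at h1
  have h3 : z % 8 = 0 ∨ z % 8 = 1 ∨ z % 8 = 2 ∨ z % 8 = 3 ∨ z % 8 = 4 ∨ z % 8 = 5 ∨
      z % 8 = 6 ∨ z % 8 = 7 := by omega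
  rcases h3 with h | h | h | h | h | h | h | h <;> rw [h] at h1 <;> norm_num at h1

/-- **Descent.** There are no two integer right triangles `(Q, e, P)`, `(R, 9e, P)` with a
common hypotenuse and `e ≠ 0`. Equivalently `y^2 = x (x-1) (x-81)` has no rational point
of the form `2 S` other than the origin. -/
theorem descent_core : ∀ (n : ℕ) (P Q R e : ℤ), e.natAbs = n → e ≠ 0 →
    P ^ 2 = Q ^ 2 + e ^ 2 → P ^ 2 = R ^ 2 + 81 * e ^ 2 → False := by
  intro n
  induction n using Nat.strong_induction_on with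
  | _ n ih =>
  intro P Q R e hn he h1 h2
  by_cases hg : Int.gcd P e = 1
  swap
  · -- reduce to the primitive case
    have hgpos : 0 < Int.gcd P e := Int.gcd_pos_of_ne_zero_right _ he
    obtain ⟨P', hP'⟩ : (Int.gcd P e : ℤ) ∣ P := Int.gcd_dvd_left ..
    obtain ⟨e', he'⟩ : (Int.gcd P e : ℤ) ∣ e := Int.gcd_dvd_right ..
    generalize Int.gcd P e = g at *
    have hgQ : (g : ℤ) ∣ Q := by
      have : (g : ℤ) ^ 2 ∣ Q ^ 2 := by
        have hQ2 : Q ^ 2 = P ^ 2 - e ^ 2 := by linarith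
        rw [hQ2, hP', he']; exact ⟨P' ^ 2 - e' ^ 2, by ring⟩
      exact (Int.pow_dvd_pow_iff two_ne_zero).mp this
    have hgR : (g : ℤ) ∣ R := by
      have : (g : ℤ) ^ 2 ∣ R ^ 2 := by
        have hR2 : R ^ 2 = P ^ 2 - 81 * e ^ 2 := by linarith
        rw [hR2, hP', he']; exact ⟨P' ^ 2 - 81 * e' ^ 2, by ring⟩
      exact (Int.pow_dvd_pow_iff two_ne_zero).mp this
    obtain ⟨Q', hQ'⟩ := hgQ
    obtain ⟨R', hR'⟩ := hgR
    have hg0 : (g : ℤ) ≠ 0 := by exact_mod_cast hgpos.ne'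
    have he'0 : e' ≠ 0 := by rintro rfl; simp at he'; exact he he'
    have hlt : e'.natAbs < n := by
      rw [← hn, he', Int.natAbs_mul, Int.natAbs_natCast]
      have hg2 : 2 ≤ g := by omega
      have hpos : 0 < e'.natAbs := Int.natAbs_pos.mpr he'0
      nlinarith
    refine ih e'.natAbs hlt P' Q' R' e' rfl he'0 ?_ ?_
    · have : (g : ℤ) ^ 2 * P' ^ 2 = (g : ℤ) ^ 2 * (Q' ^ 2 + e' ^ 2) := by
        rw [hP', hQ', he'] at h1; linarith
      exact mul_left_cancel₀ (pow_ne_zero 2 hg0) this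
    · have : (g : ℤ) ^ 2 * P' ^ 2 = (g : ℤ) ^ 2 * (R' ^ 2 + 81 * e' ^ 2) := by
        rw [hP', hR', he'] at h2; linarith
      exact mul_left_cancel₀ (pow_ne_zero 2 hg0) this
  -- primitive case
  have hcopPe : IsCoprime P e := Int.isCoprime_iff_gcd_eq_one.mpr hg
  have hP0 : P ≠ 0 := by
    rintro rfl
    have := sq_nonneg Q
    have := pow_pos (abs_pos.mpr he) 2
    rw [sq_abs] at this
    nlinarith
  have hPpos : 0 < |P| := abs_pos.mpr hP0
  have hcopQe : IsCoprime Q e := by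
    have : IsCoprime (Q ^ 2) e := by
      have h : IsCoprime (P ^ 2) e := hcopPe.pow_left
      rw [h1] at h
      have h' : IsCoprime (Q ^ 2 + e * e) e := by rwa [← pow_two]
      exact IsCoprime.of_add_mul_right_left h'
    exact IsCoprime.of_mul_left_left (by rwa [pow_two] at this)
  have hcopRe : IsCoprime R e := by
    have : IsCoprime (R ^ 2) e := by
      have h : IsCoprime (P ^ 2) e := hcopPe.pow_left
      rw [h2] at h
      have h' : IsCoprime (R ^ 2 + e * (81 * e)) e := by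
        have : R ^ 2 + e * (81 * e) = R ^ 2 + 81 * e ^ 2 := by ring
        rwa [this]
      exact IsCoprime.of_add_mul_left_left h'
    exact IsCoprime.of_mul_left_left (by rwa [pow_two] at this)
  -- 3 does not divide P
  have h3P : ¬ (3 : ℤ) ∣ P := by
    intro h3
    have key : ∀ q e : ZMod 3, q ^ 2 + e ^ 2 = 0 → e = 0 := by decide
    have hz : ((Q : ZMod 3)) ^ 2 + (e : ZMod 3) ^ 2 = 0 := by
      have : ((P ^ 2 : ℤ) : ZMod 3) = 0 := by
        rw [ZMod.intCast_zmod_eq_zero_iff_dvd]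
        exact Dvd.dvd.pow h3 two_ne_zero
      rw [h1] at this
      push_cast at this
      exact this
    have he3 : (3 : ℤ) ∣ e := by
      have := key _ _ hz
      exact (ZMod.intCast_zmod_eq_zero_iff_dvd e 3).mp this
    have := hcopPe.isUnit_of_dvd' h3 he3
    exact absurd this (by decide)
  have h3R : ¬ (3 : ℤ) ∣ R := by
    intro h3
    apply h3P
    have : (3 : ℤ) ∣ P ^ 2 := by
      rw [h2]
      exact Dvd.dvd.add (Dvd.dvd.pow h3 two_ne_zero) ⟨27 * e ^ 2, by ring⟩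
    exact Int.prime_three.dvd_of_dvd_pow this
  have hcopR9e : IsCoprime R (9 * e) := by
    have h3 : IsCoprime R 3 := by
      rw [isCoprime_comm]
      exact (Int.prime_three.coprime_iff_not_dvd).mpr h3R
    have h9 : IsCoprime R 9 := by
      have := h3.pow_right (n := 2)
      norm_num at this
      exact this
    exact h9.mul_right hcopRe
  have t1 : PythagoreanTriple Q e |P| := by
    unfold PythagoreanTriple
    rw [abs_mul_abs_self]; linarith
  have t2 : PythagoreanTriple R (9 * e) |P| := by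
    unfold PythagoreanTriple
    rw [abs_mul_abs_self]; linarith
  have hgQe : Int.gcd Q e = 1 := Int.isCoprime_iff_gcd_eq_one.mp hcopQe
  have hgR9e : Int.gcd R (9 * e) = 1 := Int.isCoprime_iff_gcd_eq_one.mp hcopR9e
  rcases Int.emod_two_eq_zero_or_one e with hev | hodd
  · -- e even
    have hQodd : Q % 2 = 1 := by
      rcases t1.even_odd_of_coprime hgQe with ⟨_, h⟩ | ⟨h, _⟩
      · omega
      · exact h
    have hRodd : R % 2 = 1 := by
      rcases t2.even_odd_of_coprime hgR9e with ⟨_, h⟩ | ⟨h, _⟩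
      · omega
      · exact h
    obtain ⟨a, b, hQ, he2, hP, hgab, hparab, -⟩ := t1.coprime_classification' hgQe hQodd hPpos
    obtain ⟨c, d, hR, h9e, hP', hgcd, -, -⟩ := t2.coprime_classification' hgR9e hRodd hPpos
    have hprod : c * d = 9 * (a * b) := by linarith
    have hsum : a ^ 2 + b ^ 2 = c ^ 2 + d ^ 2 := by linarith
    have hab0 : a * b ≠ 0 := by
      intro h
      apply he
      rw [he2]; linear_combination 2 * h
    have ha0 : a ≠ 0 := left_ne_zero_of_mul hab0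
    have hb0 : b ≠ 0 := right_ne_zero_of_mul hab0
    have hcopab : IsCoprime a b := Int.isCoprime_iff_gcd_eq_one.mpr hgab
    have hcopcd : IsCoprime c d := Int.isCoprime_iff_gcd_eq_one.mpr hgcd
    have hbound : max a.natAbs b.natAbs < n := by
      rw [← hn, he2, Int.natAbs_mul, Int.natAbs_mul]
      have h1 : 0 < a.natAbs := Int.natAbs_pos.mpr ha0
      have h2 : 0 < b.natAbs := Int.natAbs_pos.mpr hb0
      have h3 : (2 : ℤ).natAbs = 2 := rfl
      rw [h3]
      rcases max_cases a.natAbs b.natAbs with ⟨h, _⟩ | ⟨h, _⟩ <;> rw [h] <;> nlinarith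
    have h3 : (3 : ℤ) ∣ c * d := ⟨3 * (a * b), by rw [hprod]; ring⟩
    rcases Int.prime_three.dvd_or_dvd h3 with h3c | h3d
    · have h3d : IsCoprime (3 : ℤ) d := by
        rw [Int.prime_three.coprime_iff_not_dvd]
        intro h
        have := hcopcd.isUnit_of_dvd' h3c h
        exact absurd this (by decide)
      have h9 : (9 : ℤ) ∣ c := by
        have h9d : IsCoprime (9 : ℤ) d := by
          have := h3d.pow_left (m := 2)
          norm_num at this
          exact this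
        exact h9d.dvd_of_dvd_mul_right ⟨a * b, hprod⟩
      obtain ⟨c', rfl⟩ := h9
      have hprod' : c' * d = a * b := by linarith
      have hsum' : a ^ 2 + b ^ 2 = 81 * c' ^ 2 + d ^ 2 := by linarith
      obtain ⟨P', Q', R', e', he'0, hle, h1', h2'⟩ :=
        descent_key a b c' d hcopab hab0 hparab hprod' hsum'
      exact ih _ (lt_of_le_of_lt hle hbound) P' Q' R' e' rfl he'0 h1' h2'
    · have h3c : IsCoprime (3 : ℤ) c := by
        rw [Int.prime_three.coprime_iff_not_dvd]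
        intro h
        have := hcopcd.isUnit_of_dvd' h h3d
        exact absurd this (by decide)
      have h9 : (9 : ℤ) ∣ d := by
        have h9c : IsCoprime (9 : ℤ) c := by
          have := h3c.pow_left (m := 2)
          norm_num at this
          exact this
        exact h9c.dvd_of_dvd_mul_left ⟨a * b, hprod⟩
      obtain ⟨d', rfl⟩ := h9
      have hprod' : d' * c = a * b := by linarith
      have hsum' : a ^ 2 + b ^ 2 = 81 * d' ^ 2 + c ^ 2 := by linarith
      obtain ⟨P', Q', R', e', he'0, hle, h1', h2'⟩ :=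
        descent_key a b d' c hcopab hab0 hparab hprod' hsum'
      exact ih _ (lt_of_le_of_lt hle hbound) P' Q' R' e' rfl he'0 h1' h2'
  · -- e odd: impossible
    have t1' : PythagoreanTriple e Q |P| := pythagoreanTriple_comm.mp t1
    have t2' : PythagoreanTriple (9 * e) R |P| := pythagoreanTriple_comm.mp t2
    have hgeQ : Int.gcd e Q = 1 := by rw [Int.gcd_comm]; exact hgQe
    have hg9eR : Int.gcd (9 * e) R = 1 := by rw [Int.gcd_comm]; exact hgR9e
    have h9odd : (9 * e) % 2 = 1 := by omega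
    obtain ⟨a, b, he2, hQ, hP, hgab, hparab, -⟩ := t1'.coprime_classification' hgeQ hodd hPpos
    obtain ⟨c, d, h9e, hR, hP', hgcd, -, -⟩ := t2'.coprime_classification' hg9eR h9odd hPpos
    have hc2 : c ^ 2 = 5 * a ^ 2 - 4 * b ^ 2 := by linarith
    have hd2 : d ^ 2 = 5 * b ^ 2 - 4 * a ^ 2 := by linarith
    rcases hparab with ⟨ha, hb⟩ | ⟨ha, hb⟩
    · exact sq_ne_mod8 a b d ha hb hd2
    · exact sq_ne_mod8 b a c hb ha hc2

/-- Integer form of the descent without the auxiliary measure. -/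
theorem no_two_triangles (P Q R e : ℤ) (he : e ≠ 0)
    (h1 : P ^ 2 = Q ^ 2 + e ^ 2) (h2 : P ^ 2 = R ^ 2 + 81 * e ^ 2) : False :=
  descent_core e.natAbs P Q R e rfl he h1 h2

end Fermat.Agent.S51
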