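import Mathlib
import Fermat.Agent.S51.Descent

set_option autoImplicit false

namespace Fermat.Agent.S51

/-- Rational form of the descent. -/
theorem no_two_triangles_rat (P Q R e : ℚ) (he : e ≠ 0)
    (h1 : P ^ 2 = Q ^ 2 + e ^ 2) (h2 : P ^ 2 = R ^ 2 + 81 * e ^ 2) : False := by
  -- common denominator
  set D : ℤ := (P.den : ℤ) * Q.den * R.den * e.den with hD
  have hP : ((P.num * Q.den * R.den * e.den : ℤ) : ℚ) = P * D := by
    rw [hD]; push_cast
    have := Rat.mul_den_eq_num P
    rw [← this]; ring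
  have hQ : ((Q.num * P.den * R.den * e.den : ℤ) : ℚ) = Q * D := by
    rw [hD]; push_cast
    have := Rat.mul_den_eq_num Q
    rw [← this]; ring
  have hR : ((R.num * P.den * Q.den * e.den : ℤ) : ℚ) = R * D := by
    rw [hD]; push_cast
    have := Rat.mul_den_eq_num R
    rw [← this]; ring
  have hE : ((e.num * P.den * Q.den * R.den : ℤ) : ℚ) = e * D := by
    rw [hD]; push_cast
    have := Rat.mul_den_eq_num e
    rw [← this]; ring
  have hD0 : (D : ℚ) ≠ 0 := by
    rw [hD]; push_cast
    have := P.den_ne_zero; have := Q.den_ne_zero; have := R.den_ne_zero; have := e.den_ne_zero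
    positivity
  refine no_two_triangles (P.num * Q.den * R.den * e.den) (Q.num * P.den * R.den * e.den)
    (R.num * P.den * Q.den * e.den) (e.num * P.den * Q.den * R.den) ?_ ?_ ?_
  · intro h
    have h' : ((e.num * P.den * Q.den * R.den : ℤ) : ℚ) = 0 := by rw [h]; simp
    rw [hE] at h'
    rcases mul_eq_zero.mp h' with h'' | h''
    · exact he h''
    · exact hD0 h''
  · have : (((P.num * Q.den * R.den * e.den : ℤ) : ℚ)) ^ 2 =
        ((Q.num * P.den * R.den * e.den : ℤ) : ℚ) ^ 2 +
          ((e.num * P.den * Q.den * R.den : ℤ) : ℚ) ^ 2 := by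
      rw [hP, hQ, hE]; linear_combination (D : ℚ) ^ 2 * h1
    exact_mod_cast this
  · have : (((P.num * Q.den * R.den * e.den : ℤ) : ℚ)) ^ 2 =
        ((R.num * P.den * Q.den * e.den : ℤ) : ℚ) ^ 2 +
          81 * ((e.num * P.den * Q.den * R.den : ℤ) : ℚ) ^ 2 := by
      rw [hP, hR, hE]; linear_combination (D : ℚ) ^ 2 * h2
    exact_mod_cast this

/-- The curve `y^2 = x (x - 1) (x - 81)` has only its 2-torsion as rational points. -/
theorem curve81_only_two_torsion (x y : ℚ) (h : y ^ 2 = x * (x - 1) * (x - 81)) : y = 0 := by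
  by_contra hy
  refine no_two_triangles_rat (x ^ 2 - 81) (x ^ 2 - 2 * x + 81) (x ^ 2 - 162 * x + 81) (2 * y)
    (by simpa using hy) ?_ ?_
  · linear_combination (-4 : ℚ) * h
  · linear_combination (-324 : ℚ) * h

/-- The rational points of `Y^2 = X (X - 9) (X - 25)` (a model of `X₀(15)`). -/
theorem curve15_points (X Y : ℚ) (h : Y ^ 2 = X * (X - 9) * (X - 25)) :
    X = 0 ∨ X = 9 ∨ X = 25 ∨ X = 5 ∨ X = 45 := by
  by_cases h25 : X = 25
  · right; right; left; exact h25
  have hx : X - 25 ≠ 0 := sub_ne_zero.mpr h25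
  -- 2-isogeny to y^2 = x (x - 1) (x - 81)
  have key := curve81_only_two_torsion (Y ^ 2 / (X - 25) ^ 2)
    (Y * (400 - (X - 25) ^ 2) / (X - 25) ^ 2) (by
      field_simp
      have h' : Y ^ 2 = (X - 25) * ((X - 25) ^ 2 + 41 * (X - 25) + 400) := by
        rw [h]; ring
      rw [h']; ring)
  have key2 : Y * (400 - (X - 25) ^ 2) = 0 := by
    rcases div_eq_zero_iff.mp key with h0 | h0
    · exact h0
    · exact absurd ((pow_eq_zero_iff (two_ne_zero)).mp h0) hx
  rcases mul_eq_zero.mp key2 with hY | hX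
  · rw [hY] at h
    have h0 : X * (X - 9) * (X - 25) = 0 := by rw [← h]; ring
    rcases mul_eq_zero.mp h0 with h1 | h1
    · rcases mul_eq_zero.mp h1 with h2 | h2
      · left; exact h2
      · right; left; linarith
    · exact absurd h1 hx
  · have h0 : (X - 45) * (X - 5) = 0 := by linear_combination -hX
    rcases mul_eq_zero.mp h0 with h1 | h1
    · right; right; right; right; linarith
    · right; right; right; left; linarith

end Fermat.Agent.S51
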