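import Fermat.Agent.S51.AlgCore
import Fermat.Agent.S51.Curve15
import Fermat.Prelude.Def_FLTPrelim_Modularity

set_option autoImplicit false

namespace Fermat.Agent.S51

/-- Rational points of `Y² = Z (Z - 1) (9 Z - 25)` (another model of `X₀(15)`). -/
theorem curveZ_points (Z Y : ℚ) (h : Y ^ 2 = Z * (Z - 1) * (9 * Z - 25)) :
    Z = 0 ∨ Z = 1 ∨ Z = 25 / 9 ∨ Z = 5 ∨ Z = 5 / 9 := by
  rcases curve15_points (9 * Z) (9 * Y) (by linear_combination (81 : ℚ) * h) with h | h | h | h | h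
  · left; linarith
  · right; left; linarith
  · right; right; left; linarith
  · right; right; right; right; linarith
  · right; right; right; left; linarith

/-- **Parts II+III of S51** for an integral Weierstrass curve: a rational root `x0` of the
3-division polynomial together with rational `s = x₁ + x₂`, `t = x₁ x₂` for a 2-cycle
`x₁ ↦ x₂ ↦ x₁` (`x₁ ≠ x₂`) of the duplication map on `x`-coordinates force `5 ∣ c₄` and `5 ∣ Δ`. -/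
theorem five_dvd_c4_disc_of_torsion_data (W : WeierstrassCurve ℤ) (hΔ : W.Δ ≠ 0) (x0 s t : ℚ)
    (h3 : 3 * x0 ^ 4 + (W.b₂ : ℚ) * x0 ^ 3 + 3 * (W.b₄ : ℚ) * x0 ^ 2 + 3 * (W.b₆ : ℚ) * x0
      + (W.b₈ : ℚ) = 0)
    (hst : s ^ 2 - 4 * t ≠ 0)
    (hp : s ^ 4 - 8 * s ^ 2 * t + 10 * t ^ 2 - (W.b₂ : ℚ) * s * t - (W.b₄ : ℚ) * s ^ 2
      - 2 * (W.b₄ : ℚ) * t - 3 * (W.b₆ : ℚ) * s - 2 * (W.b₈ : ℚ) = 0)
    (hm : s ^ 3 - 6 * s * t - (W.b₂ : ℚ) * t - (W.b₄ : ℚ) * s - (W.b₆ : ℚ) = 0) :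
    (5 : ℤ) ∣ W.c₄ ∧ (5 : ℤ) ∣ W.Δ :=
  AlgCore.five_dvd_c4_and_disc curveZ_points W.b₂ W.b₄ W.b₆ W.b₈ x0 s t W.b_relation hΔ
    h3 hst hp hm

/-- The same statement phrased with the `b`-invariants of the base change
`E = W.map (Int.castRingHom ℚ)`. -/
theorem five_dvd_c4_disc_of_torsion_data_map (W : WeierstrassCurve ℤ) (hΔ : W.Δ ≠ 0)
    (x0 s t : ℚ)
    (h3 : 3 * x0 ^ 4 + (W.map (Int.castRingHom ℚ)).b₂ * x0 ^ 3
      + 3 * (W.map (Int.castRingHom ℚ)).b₄ * x0 ^ 2 + 3 * (W.map (Int.castRingHom ℚ)).b₆ * x0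
      + (W.map (Int.castRingHom ℚ)).b₈ = 0)
    (hst : s ^ 2 - 4 * t ≠ 0)
    (hp : s ^ 4 - 8 * s ^ 2 * t + 10 * t ^ 2 - (W.map (Int.castRingHom ℚ)).b₂ * s * t
      - (W.map (Int.castRingHom ℚ)).b₄ * s ^ 2 - 2 * (W.map (Int.castRingHom ℚ)).b₄ * t
      - 3 * (W.map (Int.castRingHom ℚ)).b₆ * s - 2 * (W.map (Int.castRingHom ℚ)).b₈ = 0)
    (hm : s ^ 3 - 6 * s * t - (W.map (Int.castRingHom ℚ)).b₂ * t
      - (W.map (Int.castRingHom ℚ)).b₄ * s - (W.map (Int.castRingHom ℚ)).b₆ = 0) :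
    (5 : ℤ) ∣ W.c₄ ∧ (5 : ℤ) ∣ W.Δ := by
  simp only [WeierstrassCurve.map_b₂, WeierstrassCurve.map_b₄, WeierstrassCurve.map_b₆,
    WeierstrassCurve.map_b₈, eq_intCast] at h3 hp hm
  exact five_dvd_c4_disc_of_torsion_data W hΔ x0 s t h3 hst hp hm

/-- Consequently such data cannot exist on a semistable model. -/
theorem not_isSemistableModel_of_torsion_data (W : WeierstrassCurve ℤ) (hΔ : W.Δ ≠ 0)
    (x0 s t : ℚ)
    (h3 : 3 * x0 ^ 4 + (W.map (Int.castRingHom ℚ)).b₂ * x0 ^ 3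
      + 3 * (W.map (Int.castRingHom ℚ)).b₄ * x0 ^ 2 + 3 * (W.map (Int.castRingHom ℚ)).b₆ * x0
      + (W.map (Int.castRingHom ℚ)).b₈ = 0)
    (hst : s ^ 2 - 4 * t ≠ 0)
    (hp : s ^ 4 - 8 * s ^ 2 * t + 10 * t ^ 2 - (W.map (Int.castRingHom ℚ)).b₂ * s * t
      - (W.map (Int.castRingHom ℚ)).b₄ * s ^ 2 - 2 * (W.map (Int.castRingHom ℚ)).b₄ * t
      - 3 * (W.map (Int.castRingHom ℚ)).b₆ * s - 2 * (W.map (Int.castRingHom ℚ)).b₈ = 0)
    (hm : s ^ 3 - 6 * s * t - (W.map (Int.castRingHom ℚ)).b₂ * t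
      - (W.map (Int.castRingHom ℚ)).b₄ * s - (W.map (Int.castRingHom ℚ)).b₆ = 0) :
    ¬ W.IsSemistableModel := by
  intro hW
  obtain ⟨h4, hD⟩ := five_dvd_c4_disc_of_torsion_data_map W hΔ x0 s t h3 hst hp hm
  exact hW 5 Nat.prime_five (by exact_mod_cast hD) (by exact_mod_cast h4)

end Fermat.Agent.S51
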