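import Mathlib
import Fermat.Prelude.Def_FLTPrelim_GaloisRep

set_option autoImplicit false

namespace Fermat.Agent.S51.H2811

open WeierstrassCurve WeierstrassCurve.Affine WeierstrassCurve.Affine.Point Polynomial

section general

variable {K : Type*} [Field K]

/-- `d(x) = 4x³ + b₂x² + 2b₄x + b₆`. -/
def dP (W : WeierstrassCurve K) (x : K) : K := 4*x^3 + W.b₂*x^2 + 2*W.b₄*x + W.b₆
/-- `n(x) = x⁴ - b₄x² - 2b₆x - b₈`. -/
def nP (W : WeierstrassCurve K) (x : K) : K := x^4 - W.b₄*x^2 - 2*W.b₆*x - W.b₈

lemma sq_eq_dP {W : WeierstrassCurve K} {x y : K} (h : W.toAffine.Equation x y) :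
    (2*y + W.a₁*x + W.a₃)^2 = dP W x := by
  rw [Affine.equation_iff] at h
  simp only [dP, WeierstrassCurve.b₂, WeierstrassCurve.b₄, WeierstrassCurve.b₆]
  linear_combination 4*h

lemma Y_eq_negY_iff {W : WeierstrassCurve K} {x y : K} (h : W.toAffine.Equation x y) :
    y = W.toAffine.negY x y ↔ dP W x = 0 := by
  rw [← sq_eq_dP h, sq_eq_zero_iff, Affine.negY]
  constructor
  · intro h1; linear_combination h1
  · intro h1; linear_combination h1

/-- x-coordinate with junk value `0` at infinity. -/
def xc {W : WeierstrassCurve K} : W.toAffine.Point → K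
  | .zero => 0
  | .some x _ _ => x

@[simp] lemma xc_some {W : WeierstrassCurve K} {x y : K} (h : W.toAffine.Nonsingular x y) :
    xc (Point.some x y h) = x := rfl

@[simp] lemma xc_zero {W : WeierstrassCurve K} : xc (0 : W.toAffine.Point) = 0 := rfl

lemma xc_neg {W : WeierstrassCurve K} (P : W.toAffine.Point) : xc (-P) = xc P := by
  cases P <;> rfl

lemma xc_eq_iff {W : WeierstrassCurve K} (P Q : W.toAffine.Point) (hP : P ≠ 0) (hQ : Q ≠ 0) :
    xc P = xc Q ↔ P = Q ∨ P = -Q := by
  rcases P with _ | ⟨x, y, h⟩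
  · exact absurd rfl hP
  rcases Q with _ | ⟨x', y', h'⟩
  · exact absurd rfl hQ
  simp only [xc_some]
  exact Point.X_eq_iff

/-- The quadratic in `y` cut out by the Weierstrass equation at a fixed `x`. -/
noncomputable def qY (W : WeierstrassCurve K) (x : K) : K[X] :=
  X^2 + C (W.a₁ * x + W.a₃) * X - C (x^3 + W.a₂*x^2 + W.a₄*x + W.a₆)

lemma qY_natDegree (W : WeierstrassCurve K) (x : K) : (qY W x).natDegree = 2 := by
  unfold qY
  compute_degree!

lemma qY_ne_zero (W : WeierstrassCurve K) (x : K) : qY W x ≠ 0 := by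
  intro h
  have := qY_natDegree W x
  rw [h] at this
  simp at this

lemma mem_roots_qY {W : WeierstrassCurve K} {x y : K} (h : W.toAffine.Equation x y) :
    y ∈ (qY W x).roots := by
  rw [mem_roots (qY_ne_zero W x), IsRoot.def]
  rw [Affine.equation_iff] at h
  simp only [qY, eval_sub, eval_add, eval_pow, eval_X, eval_mul, eval_C]
  linear_combination h

/-- pairs `(x,y)` for an affine point, `none` for zero -/
def toPair {W : WeierstrassCurve K} : W.toAffine.Point → Option (K × K)
  | .zero => none
  | .some x y _ => some (x, y)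

lemma toPair_injective {W : WeierstrassCurve K} :
    Function.Injective (toPair (W := W)) := by
  rintro (_ | ⟨x₁, y₁, h₁⟩) (_ | ⟨x₂, y₂, h₂⟩) h <;>
    simp only [toPair, Option.some.injEq, Prod.mk.injEq, reduceCtorEq] at h
  · rfl
  · obtain ⟨rfl, rfl⟩ := h; rfl

/-- If the x-coordinates of the nonzero points of a set `T` of points lie in a finset `S`,
then `T` is finite of cardinality at most `2 |S| + 1`. -/
lemma card_le_of_xc_mem {W : WeierstrassCurve K} (T : Set W.toAffine.Point) (S : Finset K)
    (hS : ∀ P ∈ T, P ≠ 0 → xc P ∈ S) :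
    Finite T ∧ Nat.card T ≤ 2 * S.card + 1 := by
  classical
  let U0 : Finset (K × K) := S.biUnion fun x => (qY W x).roots.toFinset.image fun y => (x, y)
  let U : Finset (Option (K × K)) := insert none (U0.image some)
  have hU0 : U0.card ≤ 2 * S.card := by
    calc U0.card ≤ ∑ x ∈ S, ((qY W x).roots.toFinset.image fun y => (x, y)).card :=
          Finset.card_biUnion_le
      _ ≤ ∑ _x ∈ S, 2 := by
          apply Finset.sum_le_sum
          intro x _
          calc ((qY W x).roots.toFinset.image fun y => (x, y)).card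
              ≤ (qY W x).roots.toFinset.card := Finset.card_image_le
            _ ≤ Multiset.card (qY W x).roots := Multiset.toFinset_card_le _
            _ ≤ (qY W x).natDegree := Polynomial.card_roots' _
            _ = 2 := qY_natDegree W x
      _ = 2 * S.card := by rw [Finset.sum_const, smul_eq_mul, mul_comm]
  have hU : U.card ≤ 2 * S.card + 1 := by
    calc U.card ≤ (U0.image some).card + 1 := Finset.card_insert_le _ _
      _ ≤ U0.card + 1 := Nat.add_le_add_right Finset.card_image_le 1
      _ ≤ 2 * S.card + 1 := Nat.add_le_add_right hU0 1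
  have hmem : ∀ P : T, toPair (P : W.toAffine.Point) ∈ U := by
    rintro ⟨P, hPT⟩
    rcases P with _ | ⟨x, y, h⟩
    · exact Finset.mem_insert_self _ _
    · have hx : x ∈ S := hS _ hPT (Point.some_ne_zero h)
      apply Finset.mem_insert_of_mem
      apply Finset.mem_image_of_mem
      rw [Finset.mem_biUnion]
      refine ⟨x, hx, ?_⟩
      rw [Finset.mem_image]
      exact ⟨y, Multiset.mem_toFinset.mpr (mem_roots_qY h.1), rfl⟩
  let g : T → U := fun P => ⟨toPair (P : W.toAffine.Point), hmem P⟩
  have hg : Function.Injective g := by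
    intro P Q hPQ
    have : toPair (P : W.toAffine.Point) = toPair (Q : W.toAffine.Point) := congrArg Subtype.val hPQ
    exact Subtype.ext (toPair_injective this)
  have hfin : Finite T := Finite.of_injective g hg
  refine ⟨hfin, ?_⟩
  calc Nat.card T ≤ Nat.card U := Nat.card_le_card_of_injective g hg
    _ = U.card := by rw [Nat.card_eq_fintype_card, Fintype.card_coe]
    _ ≤ 2 * S.card + 1 := hU

section dec

variable [DecidableEq K]

lemma addX_self_mul_dP {W : WeierstrassCurve K} {x y : K} (h : W.toAffine.Equation x y)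
    (hd : dP W x ≠ 0) :
    W.toAffine.addX x x (W.toAffine.slope x x y y) * dP W x = nP W x := by
  have hy : y ≠ W.toAffine.negY x y := fun h1 => hd ((Y_eq_negY_iff h).mp h1)
  rw [Affine.slope_of_Y_ne rfl hy, ← sq_eq_dP h]
  have hne : y - W.toAffine.negY x y ≠ 0 := sub_ne_zero.mpr hy
  have e1 : 2*y + W.a₁*x + W.a₃ = y - W.toAffine.negY x y := by simp only [Affine.negY]; ring
  rw [e1]
  rw [Affine.equation_iff] at h
  simp only [Affine.addX, nP, WeierstrassCurve.b₄, WeierstrassCurve.b₆, WeierstrassCurve.b₈]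
  field_simp
  simp only [Affine.negY]
  linear_combination (-(8*x + W.a₁^2 + 4*W.a₂)) * h

/-- Doubling an affine point gives zero iff `d(x) = 0`. -/
lemma add_self_eq_zero_iff {W : WeierstrassCurve K} {x y : K} (h : W.toAffine.Nonsingular x y) :
    Point.some x y h + Point.some x y h = 0 ↔ dP W x = 0 := by
  constructor
  · intro h2
    by_contra hd
    have hy : y ≠ W.toAffine.negY x y := fun h1 => hd ((Y_eq_negY_iff h.1).mp h1)
    rw [Point.add_self_of_Y_ne hy] at h2
    exact Point.some_ne_zero _ h2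
  · intro hd
    exact Point.add_self_of_Y_eq ((Y_eq_negY_iff h.1).mpr hd)

lemma xc_add_self {W : WeierstrassCurve K} {x y : K} (h : W.toAffine.Nonsingular x y)
    (hd : dP W x ≠ 0) :
    xc (Point.some x y h + Point.some x y h) * dP W x = nP W x := by
  have hy : y ≠ W.toAffine.negY x y := fun h1 => hd ((Y_eq_negY_iff h.1).mp h1)
  rw [Point.add_self_of_Y_ne hy, xc_some]
  exact addX_self_mul_dP h.1 hd

/-- For any point `P` with `P ≠ 0` and `P + P ≠ 0`:
`d(x(P)) ≠ 0` and `x(2P) d(x(P)) = n(x(P))`. -/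
lemma xc_double {W : WeierstrassCurve K} (P : W.toAffine.Point) (hP : P ≠ 0) (h2 : P + P ≠ 0) :
    dP W (xc P) ≠ 0 ∧ xc (P + P) * dP W (xc P) = nP W (xc P) := by
  rcases P with _ | ⟨x, y, h⟩
  · exact absurd rfl hP
  · have hd : dP W x ≠ 0 := fun hd => h2 ((add_self_eq_zero_iff h).mpr hd)
    exact ⟨hd, xc_add_self h hd⟩

/-- The 3-torsion relation `x d(x) = n(x)` (i.e. `ψ₃(x) = 0`). -/
lemma psi3_of_three_nsmul {W : WeierstrassCurve K} (P : W.toAffine.Point) (hP : P ≠ 0)
    (h3 : (3 : ℕ) • P = 0) : xc P * dP W (xc P) = nP W (xc P) := by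
  have e3 : P + P + P = 0 := by rw [← h3]; abel
  have h2 : P + P ≠ 0 := by
    intro h2
    rw [h2, zero_add] at e3
    exact hP e3
  have hneg : P + P = -P := eq_neg_of_add_eq_zero_left e3
  obtain ⟨-, hx⟩ := xc_double P hP h2
  rw [hneg, xc_neg] at hx
  exact hx

/-- The 2-cycle relations for a point of order 5. -/
lemma two_cycle_of_five_nsmul {W : WeierstrassCurve K} (P : W.toAffine.Point) (hP : P ≠ 0)
    (h5 : (5 : ℕ) • P = 0) :
    xc P ≠ xc (P + P) ∧ dP W (xc P) ≠ 0 ∧ dP W (xc (P + P)) ≠ 0 ∧
      xc (P + P) * dP W (xc P) = nP W (xc P) ∧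
      xc P * dP W (xc (P + P)) = nP W (xc (P + P)) := by
  have e5 : (P + P) + (P + P) + P = 0 := by rw [← h5]; abel
  have h2 : P + P ≠ 0 := by
    intro h2
    rw [h2, zero_add, zero_add] at e5
    exact hP e5
  have h4 : (P + P) + (P + P) ≠ 0 := by
    intro h4
    rw [h4, zero_add] at e5
    exact hP e5
  have hneg : (P + P) + (P + P) = -P := eq_neg_of_add_eq_zero_left e5
  obtain ⟨hd1, hx1⟩ := xc_double P hP h2
  obtain ⟨hd2, hx2⟩ := xc_double (P + P) h2 h4
  rw [hneg, xc_neg] at hx2
  refine ⟨?_, hd1, hd2, hx1, hx2⟩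
  intro hxx
  rcases (xc_eq_iff P (P + P) hP h2).mp hxx with h | h
  · apply hP
    have : P + P = P + 0 := by rw [add_zero]; exact h.symm
    exact add_left_cancel this
  · have e3 : P + P + P = 0 := by
      have := add_eq_zero_iff_eq_neg.mpr h
      rw [← this]; abel
    apply h2
    have : (P + P) + (P + P) + P = (P + P) + (P + P + P) := by abel
    rw [e5, e3, add_zero] at this
    exact this.symm

end dec

end general

end Fermat.Agent.S51.H2811
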