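import Mathlib
import Fermat.Prelude.Def_FLTPrelim_GaloisRep
import Fermat.Agent.S51.H2811A

set_option autoImplicit false

namespace Fermat.Agent.S51.H2811

open WeierstrassCurve WeierstrassCurve.Affine WeierstrassCurve.Affine.Point Polynomial

section poly

variable {K : Type*} [Field K]

/-- `ψ₃` as a polynomial. -/
noncomputable def P3 (W : WeierstrassCurve K) : K[X] :=
  C 3 * X^4 + C W.b₂ * X^3 + C (3*W.b₄) * X^2 + C (3*W.b₆) * X + C W.b₈

lemma P3_eval (W : WeierstrassCurve K) (x : K) :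
    (P3 W).eval x = x * dP W x - nP W x := by
  simp only [P3, eval_add, eval_mul, eval_pow, eval_C, eval_X, dP, nP]
  ring

/-- `n` as a polynomial. -/
noncomputable def Npoly (W : WeierstrassCurve K) : K[X] :=
  X^4 - C W.b₄ * X^2 - C (2*W.b₆) * X - C W.b₈

/-- `d` as a polynomial. -/
noncomputable def Dpoly (W : WeierstrassCurve K) : K[X] :=
  C 4 * X^3 + C W.b₂ * X^2 + C (2*W.b₄) * X + C W.b₆

lemma Npoly_eval (W : WeierstrassCurve K) (x : K) : (Npoly W).eval x = nP W x := by
  simp only [Npoly, eval_sub, eval_mul, eval_pow, eval_C, eval_X, nP]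

lemma Dpoly_eval (W : WeierstrassCurve K) (x : K) : (Dpoly W).eval x = dP W x := by
  simp only [Dpoly, eval_add, eval_mul, eval_pow, eval_C, eval_X, dP]

/-- numerator of `D(D(x)) - x`, of degree 16. -/
noncomputable def F16 (W : WeierstrassCurve K) : K[X] :=
  (Npoly W)^4 - C W.b₄ * (Npoly W)^2 * (Dpoly W)^2 - C (2*W.b₆) * (Npoly W) * (Dpoly W)^3
    - C W.b₈ * (Dpoly W)^4
    - X * (Dpoly W) * (C 4 * (Npoly W)^3 + C W.b₂ * (Npoly W)^2 * (Dpoly W)
        + C (2*W.b₄) * (Npoly W) * (Dpoly W)^2 + C W.b₆ * (Dpoly W)^3)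

lemma F16_eval (W : WeierstrassCurve K) (x : K) :
    (F16 W).eval x = (nP W x)^4 - W.b₄ * (nP W x)^2 * (dP W x)^2 - (2*W.b₆) * (nP W x) * (dP W x)^3
    - W.b₈ * (dP W x)^4
    - x * (dP W x) * (4 * (nP W x)^3 + W.b₂ * (nP W x)^2 * (dP W x)
        + (2*W.b₄) * (nP W x) * (dP W x)^2 + W.b₆ * (dP W x)^3) := by
  simp only [F16, eval_sub, eval_add, eval_mul, eval_pow, eval_C, eval_X, Npoly_eval, Dpoly_eval]

lemma F16_eval_eq_zero (W : WeierstrassCurve K) {x₁ x₂ : K}
    (h1 : x₂ * dP W x₁ = nP W x₁) (h2 : x₁ * dP W x₂ = nP W x₂) : (F16 W).eval x₁ = 0 := by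
  rw [F16_eval, ← h1]
  simp only [dP, nP] at h2
  linear_combination (-(dP W x₁)^4) * h2

variable [CharZero K]

lemma P3_natDegree (W : WeierstrassCurve K) : (P3 W).natDegree = 4 := by
  unfold P3
  compute_degree!

lemma P3_ne_zero (W : WeierstrassCurve K) : P3 W ≠ 0 := by
  intro h
  have := P3_natDegree W
  rw [h] at this
  simp at this

lemma F16_natDegree (W : WeierstrassCurve K) : (F16 W).natDegree = 16 := by
  unfold F16 Npoly Dpoly
  compute_degree!

lemma F16_ne_zero (W : WeierstrassCurve K) : F16 W ≠ 0 := by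
  intro h
  have := F16_natDegree W
  rw [h] at this
  simp at this

variable [DecidableEq K]

lemma torsion_three_card (W : WeierstrassCurve K) :
    Finite (Submodule.torsionBy ℤ W.toAffine.Point ((3 : ℕ) : ℤ)) ∧
      Nat.card (Submodule.torsionBy ℤ W.toAffine.Point ((3 : ℕ) : ℤ)) ≤ 9 := by
  classical
  obtain ⟨hfin, hcard⟩ := card_le_of_xc_mem
    (T := (Submodule.torsionBy ℤ W.toAffine.Point ((3 : ℕ) : ℤ) : Set W.toAffine.Point))
    (S := (P3 W).roots.toFinset) (by
      intro P hP hP0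
      have h3 : (3 : ℕ) • P = 0 := by
        have := (Submodule.mem_torsionBy_iff _ _).mp hP
        rwa [natCast_zsmul] at this
      rw [Multiset.mem_toFinset, mem_roots (P3_ne_zero W), IsRoot.def, P3_eval,
        psi3_of_three_nsmul P hP0 h3, sub_self])
  refine ⟨hfin, hcard.trans ?_⟩
  have : (P3 W).roots.toFinset.card ≤ 4 :=
    (Multiset.toFinset_card_le _).trans ((Polynomial.card_roots' _).trans (P3_natDegree W).le)
  omega

lemma torsion_five_card (W : WeierstrassCurve K) :
    Finite (Submodule.torsionBy ℤ W.toAffine.Point ((5 : ℕ) : ℤ)) ∧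
      Nat.card (Submodule.torsionBy ℤ W.toAffine.Point ((5 : ℕ) : ℤ)) ≤ 33 := by
  classical
  obtain ⟨hfin, hcard⟩ := card_le_of_xc_mem
    (T := (Submodule.torsionBy ℤ W.toAffine.Point ((5 : ℕ) : ℤ) : Set W.toAffine.Point))
    (S := (F16 W).roots.toFinset) (by
      intro P hP hP0
      have h5 : (5 : ℕ) • P = 0 := by
        have := (Submodule.mem_torsionBy_iff _ _).mp hP
        rwa [natCast_zsmul] at this
      obtain ⟨-, -, -, h1, h2⟩ := two_cycle_of_five_nsmul P hP0 h5
      rw [Multiset.mem_toFinset, mem_roots (F16_ne_zero W), IsRoot.def]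
      exact F16_eval_eq_zero W h1 h2)
  refine ⟨hfin, hcard.trans ?_⟩
  have : (F16 W).roots.toFinset.card ≤ 16 :=
    (Multiset.toFinset_card_le _).trans ((Polynomial.card_roots' _).trans (F16_natDegree W).le)
  omega

end poly

/-- In a finite `ZMod p`-vector space with fewer than `p^3` elements, a proper nonzero subspace
is a line: every element is a multiple of any given nonzero element. -/
lemma exists_nsmul_of_card_lt {p : ℕ} [Fact p.Prime] {M : Type*} [AddCommGroup M]
    [Module (ZMod p) M] [Finite M] (hcard : Nat.card M < p ^ 3)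
    (N : Submodule (ZMod p) M) (h1 : N ≠ ⊤) (P : M) (hP : P ∈ N) (hP0 : P ≠ 0)
    (Q : M) (hQ : Q ∈ N) : ∃ k : ℕ, Q = k • P := by
  have hp : 1 < p := (Fact.out : p.Prime).one_lt
  have hfin : Module.Finite (ZMod p) M := Module.Finite.of_finite
  have h3 : Module.finrank (ZMod p) M < 3 := by
    rw [Module.natCard_eq_pow_finrank (K := ZMod p) (V := M), Nat.card_zmod] at hcard
    exact (Nat.pow_lt_pow_iff_right hp).mp hcard
  have hlt : Module.finrank (ZMod p) N < Module.finrank (ZMod p) M :=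
    Submodule.finrank_lt h1
  have hpos : 0 < Module.finrank (ZMod p) N := by
    rw [Module.finrank_pos_iff_exists_ne_zero]
    exact ⟨⟨P, hP⟩, fun h => hP0 (congrArg Subtype.val h)⟩
  have hone : Module.finrank (ZMod p) N = 1 := by omega
  have hne : (⟨P, hP⟩ : N) ≠ 0 := fun h => hP0 (congrArg Subtype.val h)
  obtain ⟨c, hc⟩ := (finrank_eq_one_iff_of_nonzero' (⟨P, hP⟩ : N) hne).mp hone ⟨Q, hQ⟩
  obtain ⟨k, rfl⟩ := ZMod.natCast_zmod_surjective c
  refine ⟨k, ?_⟩
  have := congrArg Subtype.val hc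
  simp only [Submodule.coe_smul] at this
  rw [← this, Nat.cast_smul_eq_nsmul]

end Fermat.Agent.S51.H2811
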