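import Mathlib
import Fermat.Prelude.Def_FLTPrelim_GaloisRep
import Fermat.Agent.S51.H2811B

set_option autoImplicit false

namespace Fermat.Agent.S51.H2811

open WeierstrassCurve WeierstrassCurve.Affine WeierstrassCurve.Affine.Point Polynomial

section galois

local notation "Kbar" => AlgebraicClosure ℚ

/-- `AlgebraicClosure ℚ` is Galois over `ℚ` for the default (`DivisionRing.toRatAlgebra`)
algebra structure used by the frozen statements. -/
theorem isGalois_Kbar : IsGalois ℚ Kbar := by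
  have h : (DivisionRing.toRatAlgebra : Algebra ℚ Kbar) =
      (AlgebraicClosure.instAlgebra ℚ : Algebra ℚ Kbar) := Subsingleton.elim _ _
  rw [h]
  infer_instance

theorem rat_of_fixed (x : Kbar) (h : ∀ σ : Kbar ≃ₐ[ℚ] Kbar, σ x = x) :
    ∃ q : ℚ, algebraMap ℚ Kbar q = x := by
  have := isGalois_Kbar
  exact (InfiniteGalois.mem_range_algebraMap_iff_fixed x).mpr h

variable (E : WeierstrassCurve ℚ)

lemma xc_smul (σ : Kbar ≃ₐ[ℚ] Kbar) (P : (E.toAffine⁄Kbar).Point) :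
    xc (σ • P) = σ (xc P) := by
  rcases P with _ | ⟨x, y, h⟩
  · show xc (0 : (E.toAffine⁄Kbar).Point) = σ 0
    rw [_root_.map_zero]; rfl
  · rfl

lemma smul_eq_zero_iff' (σ : Kbar ≃ₐ[ℚ] Kbar) (P : (E.toAffine⁄Kbar).Point) :
    σ • P = 0 ↔ P = 0 := by
  constructor
  · intro h
    rcases P with _ | ⟨x, y, hxy⟩
    · rfl
    · exact absurd h (Point.some_ne_zero _)
  · rintro rfl; rfl

theorem rat_root_of_stable_three
    (N : Submodule (ZMod 3) (Submodule.torsionBy ℤ (E.toAffine⁄Kbar).Point ((3 : ℕ) : ℤ)))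
    (hN : IsGaloisStable ℚ N) (h0 : N ≠ ⊥) (h1 : N ≠ ⊤) :
    ∃ x0 : ℚ, 3*x0^4 + E.b₂*x0^3 + 3*E.b₄*x0^2 + 3*E.b₆*x0 + E.b₈ = 0 := by
  classical
  obtain ⟨hfin, hcard⟩ := torsion_three_card (E.toAffine⁄Kbar)
  have hcard' : Nat.card (Submodule.torsionBy ℤ (E.toAffine⁄Kbar).Point ((3 : ℕ) : ℤ)) < 3^3 :=
    lt_of_le_of_lt hcard (by norm_num)
  obtain ⟨P, hPN, hP0⟩ := (Submodule.ne_bot_iff N).mp h0
  have hP3 : (3 : ℕ) • (P : (E.toAffine⁄Kbar).Point) = 0 := by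
    have := (Submodule.mem_torsionBy_iff _ _).mp P.2
    rwa [natCast_zsmul] at this
  have hPpt : (P : (E.toAffine⁄Kbar).Point) ≠ 0 := fun h => hP0 (Subtype.ext h)
  have hfix : ∀ σ : Kbar ≃ₐ[ℚ] Kbar, σ (xc (P : (E.toAffine⁄Kbar).Point)) = xc (P : (E.toAffine⁄Kbar).Point) := by
    intro σ
    obtain ⟨k, hk⟩ := exists_nsmul_of_card_lt hcard' N h1 P hPN hP0 (σ • P) (hN σ P hPN)
    have hk' : σ • (P : (E.toAffine⁄Kbar).Point) = k • (P : (E.toAffine⁄Kbar).Point) := by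
      have := congrArg Subtype.val hk
      rw [AddSubmonoidClass.coe_nsmul] at this
      exact this
    have hmod : k • (P : (E.toAffine⁄Kbar).Point) = (k % 3) • (P : (E.toAffine⁄Kbar).Point) := by
      conv_lhs => rw [← Nat.div_add_mod k 3, add_nsmul, mul_nsmul, hP3, nsmul_zero, zero_add]
    rw [← xc_smul, hk', hmod]
    have hlt : k % 3 < 3 := Nat.mod_lt _ (by norm_num)
    rw [hmod] at hk'
    interval_cases hk3 : (k % 3)
    · rw [zero_nsmul] at hk'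
      exact absurd ((smul_eq_zero_iff' E σ _).mp hk') hPpt
    · rw [one_nsmul]
    · have : (2 : ℕ) • (P : (E.toAffine⁄Kbar).Point) = -(P : (E.toAffine⁄Kbar).Point) := by
        have e3 : (P : (E.toAffine⁄Kbar).Point) + P + P = 0 := by rw [← hP3]; abel
        rw [two_nsmul]
        exact eq_neg_of_add_eq_zero_left e3
      rw [this, xc_neg]
  obtain ⟨q, hq⟩ := rat_of_fixed _ hfix
  refine ⟨q, ?_⟩
  have hpsi := psi3_of_three_nsmul (P : (E.toAffine⁄Kbar).Point) hPpt hP3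
  rw [← hq] at hpsi
  apply (algebraMap ℚ Kbar).injective
  simp only [dP, nP, WeierstrassCurve.baseChange, WeierstrassCurve.map_b₂, WeierstrassCurve.map_b₄,
    WeierstrassCurve.map_b₆, WeierstrassCurve.map_b₈] at hpsi
  simp only [map_add, map_mul, map_pow, map_ofNat, _root_.map_zero]
  linear_combination hpsi

theorem rat_two_cycle_of_stable_five
    (N : Submodule (ZMod 5) (Submodule.torsionBy ℤ (E.toAffine⁄Kbar).Point ((5 : ℕ) : ℤ)))
    (hN : IsGaloisStable ℚ N) (h0 : N ≠ ⊥) (h1 : N ≠ ⊤) :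
    ∃ e δ : ℚ, δ ≠ 0 ∧
      E.b₆ + 2*e*E.b₄ + e^2*E.b₂ + 4*e^3 = δ * (E.b₂ + 12*e) ∧
      E.b₈ + 3*e*E.b₆ + 3*e^2*E.b₄ + e^3*E.b₂ + 3*e^4
        = 5*δ^2 + δ * (E.b₄ + e*E.b₂ + 6*e^2) := by
  classical
  have : Fact (Nat.Prime 5) := ⟨by norm_num⟩
  obtain ⟨hfin, hcard⟩ := torsion_five_card (E.toAffine⁄Kbar)
  have hcard' : Nat.card (Submodule.torsionBy ℤ (E.toAffine⁄Kbar).Point ((5 : ℕ) : ℤ)) < 5^3 :=
    lt_of_le_of_lt hcard (by norm_num)
  obtain ⟨P, hPN, hP0⟩ := (Submodule.ne_bot_iff N).mp h0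
  have hP5 : (5 : ℕ) • (P : (E.toAffine⁄Kbar).Point) = 0 := by
    have := (Submodule.mem_torsionBy_iff _ _).mp P.2
    rwa [natCast_zsmul] at this
  have hPpt : (P : (E.toAffine⁄Kbar).Point) ≠ 0 := fun h => hP0 (Subtype.ext h)
  obtain ⟨hne, hd1, hd2, hc1, hc2⟩ := two_cycle_of_five_nsmul (P : (E.toAffine⁄Kbar).Point) hPpt hP5
  -- notation
  obtain ⟨P', hP'⟩ : ∃ P' : (E.toAffine⁄Kbar).Point, P' = (P : (E.toAffine⁄Kbar).Point) := ⟨_, rfl⟩
  rw [← hP'] at hP5 hPpt hne hd1 hd2 hc1 hc2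
  have e5 : (P' + P') + (P' + P') + P' = 0 := by rw [← hP5]; abel
  have hQQ : (P' + P') + (P' + P') = -P' := eq_neg_of_add_eq_zero_left e5
  have hperm : ∀ σ : Kbar ≃ₐ[ℚ] Kbar,
      (σ (xc P') = xc P' ∧ σ (xc (P' + P')) = xc (P' + P')) ∨
      (σ (xc P') = xc (P' + P') ∧ σ (xc (P' + P')) = xc P') := by
    intro σ
    obtain ⟨k, hk⟩ := exists_nsmul_of_card_lt hcard' N h1 P hPN hP0 (σ • P) (hN σ P hPN)
    have hk' : σ • P' = k • P' := by
      have := congrArg Subtype.val hk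
      rw [AddSubmonoidClass.coe_nsmul] at this
      rw [hP']
      exact this
    have hmod : k • P' = (k % 5) • P' := by
      conv_lhs => rw [← Nat.div_add_mod k 5, add_nsmul, mul_nsmul, hP5, nsmul_zero, zero_add]
    have hlt : k % 5 < 5 := Nat.mod_lt _ (by norm_num)
    rw [hmod] at hk'
    have hdbl : σ • (P' + P') = σ • P' + σ • P' := smul_add σ P' P'
    rw [← xc_smul, ← xc_smul, hdbl]
    interval_cases hk5 : (k % 5)
    · rw [zero_nsmul] at hk'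
      exact absurd ((smul_eq_zero_iff' E σ _).mp hk') hPpt
    · rw [one_nsmul] at hk'
      left
      rw [hk']
      exact ⟨rfl, rfl⟩
    · have h2 : σ • P' = P' + P' := by rw [hk', two_nsmul]
      right
      rw [h2, hQQ, xc_neg]
      exact ⟨rfl, rfl⟩
    · have h3 : σ • P' = -(P' + P') := by
        rw [hk']
        have : (3 : ℕ) • P' + (P' + P') = 0 := by rw [← hP5]; abel
        exact eq_neg_of_add_eq_zero_left this
      right
      rw [h3, xc_neg, ← neg_add, hQQ, neg_neg]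
      exact ⟨rfl, rfl⟩
    · have h4 : σ • P' = -P' := by
        rw [hk']
        have : (4 : ℕ) • P' + P' = 0 := by rw [← hP5]; abel
        exact eq_neg_of_add_eq_zero_left this
      left
      rw [h4, xc_neg, ← neg_add, xc_neg]
      exact ⟨rfl, rfl⟩
  have hs : ∀ σ : Kbar ≃ₐ[ℚ] Kbar, σ (xc P' + xc (P' + P')) = xc P' + xc (P' + P') := by
    intro σ
    rcases hperm σ with ⟨a, b⟩ | ⟨a, b⟩
    · rw [map_add, a, b]
    · rw [map_add, a, b, add_comm]
  have ht : ∀ σ : Kbar ≃ₐ[ℚ] Kbar, σ (xc P' * xc (P' + P')) = xc P' * xc (P' + P') := by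
    intro σ
    rcases hperm σ with ⟨a, b⟩ | ⟨a, b⟩
    · rw [map_mul, a, b]
    · rw [map_mul, a, b, mul_comm]
  obtain ⟨qs, hqs⟩ := rat_of_fixed _ hs
  obtain ⟨qt, hqt⟩ := rat_of_fixed _ ht
  -- abbreviations
  obtain ⟨x₁, hx₁⟩ : ∃ x₁ : Kbar, x₁ = xc P' := ⟨_, rfl⟩
  obtain ⟨x₂, hx₂⟩ : ∃ x₂ : Kbar, x₂ = xc (P' + P') := ⟨_, rfl⟩
  simp only [← hx₁, ← hx₂] at hne hc1 hc2 hqs hqt
  simp only [dP, nP, WeierstrassCurve.baseChange, WeierstrassCurve.map_b₂, WeierstrassCurve.map_b₄,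
    WeierstrassCurve.map_b₆, WeierstrassCurve.map_b₈] at hc1 hc2
  have hr : x₁ - x₂ ≠ 0 := sub_ne_zero.mpr hne
  refine ⟨qs/2, (qs^2 - 4*qt)/4, ?_, ?_, ?_⟩
  · intro h
    apply hr
    have h' : (algebraMap ℚ Kbar) ((qs^2 - 4*qt)/4) = 0 := by rw [h, _root_.map_zero]
    simp only [map_div₀, map_sub, map_mul, map_pow, map_ofNat, hqs, hqt] at h'
    have : (x₁ - x₂)^2 = 0 := by linear_combination 4 * h'
    exact pow_eq_zero_iff (two_ne_zero) |>.mp this
  · apply (algebraMap ℚ Kbar).injective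
    simp only [map_add, map_mul, map_pow, map_ofNat, map_div₀, map_sub, hqs, hqt]
    have key : (x₁ - x₂) * (((x₁ - x₂)/2)^2 * ((algebraMap ℚ Kbar) E.b₂ + 12 * ((x₁ + x₂)/2))
        - ((algebraMap ℚ Kbar) E.b₆ + 2*((x₁ + x₂)/2)*(algebraMap ℚ Kbar) E.b₄
            + ((x₁ + x₂)/2)^2*(algebraMap ℚ Kbar) E.b₂ + 4*((x₁ + x₂)/2)^3)) = 0 := by
      linear_combination (-1) * hc1 + hc2
    have key2 := (mul_eq_zero.mp key).resolve_left hr
    linear_combination (-1) * key2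
  · apply (algebraMap ℚ Kbar).injective
    simp only [map_add, map_mul, map_pow, map_ofNat, map_div₀, map_sub, hqs, hqt]
    linear_combination (1/2) * hc1 + (1/2) * hc2

end galois

end Fermat.Agent.S51.H2811
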