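import Mathlib
import Fermat.Prelude.Def_FLTPrelim_GaloisRep
import Fermat.Agent.S51.H2811C

set_option autoImplicit false

namespace Fermat.Agent.S51.H2811

open WeierstrassCurve WeierstrassCurve.Affine WeierstrassCurve.Affine.Point

local notation "Kbar" => AlgebraicClosure ℚ

/-- If the mod-3 representation is not irreducible (but `E[3]` is nontrivial), then `ψ₃` has a
rational root. -/
theorem exists_rat_root_of_not_irreducible_three (E : WeierstrassCurve ℚ)
    (hnt : Nontrivial (Submodule.torsionBy ℤ (E.toAffine⁄Kbar).Point ((3 : ℕ) : ℤ)))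
    (h : ¬ GaloisRepIsIrreducible (K := Kbar) ℚ E 3) :
    ∃ x0 : ℚ, 3*x0^4 + E.b₂*x0^3 + 3*E.b₄*x0^2 + 3*E.b₆*x0 + E.b₈ = 0 := by
  unfold GaloisRepIsIrreducible at h
  rw [not_and] at h
  obtain ⟨N, hN'⟩ := not_forall.mp (h hnt)
  rw [Classical.not_imp, not_or] at hN'
  obtain ⟨hN, h0, h1⟩ := hN'
  exact rat_root_of_stable_three E N hN h0 h1

/-- If the mod-5 representation is not irreducible (but `E[5]` is nontrivial), then there are
rational `e, δ` (`δ ≠ 0`) such that after translating `x ↦ x + e` the invariants satisfy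
`b₆' = δ b₂'` and `b₈' = 5δ² + δ b₄'`. -/
theorem exists_rat_two_cycle_of_not_irreducible_five (E : WeierstrassCurve ℚ)
    (hnt : Nontrivial (Submodule.torsionBy ℤ (E.toAffine⁄Kbar).Point ((5 : ℕ) : ℤ)))
    (h : ¬ GaloisRepIsIrreducible (K := Kbar) ℚ E 5) :
    ∃ e δ : ℚ, δ ≠ 0 ∧
      E.b₆ + 2*e*E.b₄ + e^2*E.b₂ + 4*e^3 = δ * (E.b₂ + 12*e) ∧
      E.b₈ + 3*e*E.b₆ + 3*e^2*E.b₄ + e^3*E.b₂ + 3*e^4
        = 5*δ^2 + δ * (E.b₄ + e*E.b₂ + 6*e^2) := by
  unfold GaloisRepIsIrreducible at h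
  rw [not_and] at h
  obtain ⟨N, hN'⟩ := not_forall.mp (h hnt)
  rw [Classical.not_imp, not_or] at hN'
  obtain ⟨hN, h0, h1⟩ := hN'
  exact rat_two_cycle_of_stable_five E N hN h0 h1

end Fermat.Agent.S51.H2811

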