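import Fermat.Agent.S51.TorsionThree

set_option autoImplicit false

namespace Fermat.Agent.S51

open WeierstrassCurve WeierstrassCurve.Affine Polynomial

section Field

variable {F : Type*} [Field F] [DecidableEq F] (W : WeierstrassCurve.Affine F)

/-- If `P = (x₁, y₁)` is not 2-torsion, `x₂ = x(2P) ≠ x₁`, `2P` is not 2-torsion and the
duplication map sends `x₂` back to `x₁`, then `5 • P = 0`. -/
theorem five_nsmul_eq_zero_of_two_cycle {x₁ y₁ : F} (h₁ : W.Nonsingular x₁ y₁)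
    (hy₁ : y₁ ≠ W.negY x₁ y₁)
    (hne : W.addX x₁ x₁ (W.slope x₁ x₁ y₁ y₁) ≠ x₁)
    (hd₂ : 4 * (W.addX x₁ x₁ (W.slope x₁ x₁ y₁ y₁)) ^ 3 +
      W.b₂ * (W.addX x₁ x₁ (W.slope x₁ x₁ y₁ y₁)) ^ 2 +
      2 * W.b₄ * (W.addX x₁ x₁ (W.slope x₁ x₁ y₁ y₁)) + W.b₆ ≠ 0)
    (hcyc : (W.addX x₁ x₁ (W.slope x₁ x₁ y₁ y₁)) ^ 4 -
      W.b₄ * (W.addX x₁ x₁ (W.slope x₁ x₁ y₁ y₁)) ^ 2 -
      2 * W.b₆ * (W.addX x₁ x₁ (W.slope x₁ x₁ y₁ y₁)) - W.b₈ =
      x₁ * (4 * (W.addX x₁ x₁ (W.slope x₁ x₁ y₁ y₁)) ^ 3 +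
      W.b₂ * (W.addX x₁ x₁ (W.slope x₁ x₁ y₁ y₁)) ^ 2 +
      2 * W.b₄ * (W.addX x₁ x₁ (W.slope x₁ x₁ y₁ y₁)) + W.b₆)) :
    (5 : ℕ) • Point.some x₁ y₁ h₁ = 0 := by
  have h2P := Point.add_self_of_Y_ne (h₁ := h₁) hy₁
  set x₂ := W.addX x₁ x₁ (W.slope x₁ x₁ y₁ y₁) with hx₂
  set y₂ := W.addY x₁ x₁ y₁ (W.slope x₁ x₁ y₁ y₁) with hy₂
  have h₂ : W.Nonsingular x₂ y₂ := nonsingular_add h₁ h₁ fun hxy => hy₁ hxy.right
  have hy₂' : y₂ ≠ W.negY x₂ y₂ := by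
    intro hyy
    apply hd₂
    rw [← sub_negY_sq W h₂.1, sub_eq_zero.mpr hyy]
    ring
  have h4P := Point.add_self_of_Y_ne (h₁ := h₂) hy₂'
  have hX4 : W.addX x₂ x₂ (W.slope x₂ x₂ y₂ y₂) = x₁ := by
    have h1 := addX_self_mul W h₂.1 hy₂'
    have h2 : (W.addX x₂ x₂ (W.slope x₂ x₂ y₂ y₂) - x₁) *
        (4 * x₂ ^ 3 + W.b₂ * x₂ ^ 2 + 2 * W.b₄ * x₂ + W.b₆) = 0 := by
      linear_combination h1 + hcyc
    rcases mul_eq_zero.mp h2 with h4 | h4
    · exact sub_eq_zero.mp h4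
    · exact absurd h4 hd₂
  set P := Point.some x₁ y₁ h₁ with hP
  have hPP : P + P = Point.some x₂ y₂ h₂ := h2P
  have h4 : (P + P) + (P + P) = P ∨ (P + P) + (P + P) = -P := by
    rw [hPP, h4P]
    exact Point.X_eq_iff.mp hX4
  have key : (P + P) + (P + P) = -P := by
    rcases h4 with h4 | h4
    · exfalso
      have h3 : P + P = -P := by
        have : P + P + P = 0 := by
          have h5 : P + P + (P + P) - P = P - P := by rw [h4]
          rw [sub_self] at h5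
          rw [← h5]; abel
        exact eq_neg_of_add_eq_zero_left this
      rw [hPP, hP, Point.neg_some, Point.some.injEq] at h3
      exact hne h3.1
    · exact h4
  have : (5 : ℕ) • P = (P + P) + (P + P) + P := by
    rw [show (5 : ℕ) = 2 + 2 + 1 from rfl, add_nsmul, add_nsmul, two_nsmul, one_nsmul]
  rw [this, key, neg_add_cancel]

end Field

section Alg

variable {K : Type*} [Field K] [CharZero K]

/-- Pure algebra: in the `v`-normal form the points `τ ± r` form a 2-cycle of the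
duplication map on x-coordinates. -/
theorem two_cycle_alg (b2 b4 b6 b8 β δ v r τ : K)
    (ht : b2 = β - 12 * τ)
    (h1 : b2 ^ 2 - 24 * b4 = δ * (v ^ 2 - 24 * v + 64))
    (h2 : -b2 ^ 3 + 36 * b2 * b4 - 216 * b6 = -(β * δ * (v ^ 2 - 36 * v + 304)))
    (hb : 4 * b8 = b2 * b6 - b4 ^ 2)
    (h3 : β ^ 2 = δ * (v ^ 2 + 16))
    (h4 : r ^ 2 = δ) :
    4 * (τ + r) ^ 3 + b2 * (τ + r) ^ 2 + 2 * b4 * (τ + r) + b6 = 2 * δ * (β + v * r) ∧
    (τ + r) ^ 4 - b4 * (τ + r) ^ 2 - 2 * b6 * (τ + r) - b8 =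
      (τ - r) * (4 * (τ + r) ^ 3 + b2 * (τ + r) ^ 2 + 2 * b4 * (τ + r) + b6) := by
  subst ht
  constructor
  · linear_combination (-(1 / 216)) * h2 + (-(1 / 144) * β - (1 / 12) * r) * h1 + ((1 / 432) * β + (1 / 12) * r) * h3 + (β + 4 * r) * h4
  · linear_combination (-(1 / 4)) * hb + ((1 / 864) * β + (1 / 216) * r) * h2 + (-(1 / 96) * b4 + (1 / 768) * β ^ 2 + (1 / 144) * β * r - (1 / 96) * β * τ + (1 / 2304) * δ * v ^ 2 - (1 / 96) * δ * v + (1 / 36) * δ - (1 / 24) * r ^ 2 + (1 / 16) * τ ^ 2) * h1 + (-(1 / 6912) * β ^ 2 - (1 / 432) * β * r - (1 / 2304) * δ * v ^ 2 + (1 / 48) * δ * v - (43 / 144) * δ + (1 / 24) * r ^ 2) * h3 + (β * r + δ * v + 3 * δ + 5 * r ^ 2) * h4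

theorem exists_v_param [IsAlgClosed K] (c4 Δ : K) (hΔ : Δ ≠ 0) :
    ∃ v : K, Δ * (v ^ 2 - 24 * v + 64) ^ 3 = 32 * c4 ^ 3 * (v - 22) := by
  set p : K[X] := C Δ * (X ^ 2 - 24 * X + 64) ^ 3 - C (32 * c4 ^ 3) * (X - 22) with hp
  have hdeg : p.natDegree = 6 := by
    rw [hp]
    compute_degree!
  have hp0 : p ≠ 0 := ne_zero_of_natDegree_gt (n := 0) (by omega)
  obtain ⟨v, hv⟩ := IsAlgClosed.exists_root p (by
    rw [degree_eq_natDegree hp0, hdeg]; decide)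
  refine ⟨v, ?_⟩
  simp only [hp, IsRoot.def, eval_sub, eval_mul, eval_C, eval_pow, eval_add, eval_X, eval_ofNat] at hv
  linear_combination hv

/-- Existence of the parameters of the `v`-normal form. -/
theorem exists_normal_form_params [IsAlgClosed K] (c4 c6 Δ : K)
    (hrel : 1728 * Δ = c4 ^ 3 - c6 ^ 2) (hΔ : Δ ≠ 0) :
    ∃ v δ β : K, δ ≠ 0 ∧ c4 = δ * (v ^ 2 - 24 * v + 64) ∧
      c6 = -(β * δ * (v ^ 2 - 36 * v + 304)) ∧ β ^ 2 = δ * (v ^ 2 + 16) := by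
  obtain ⟨v, hv⟩ := exists_v_param c4 Δ hΔ
  have hv22 : v - 22 ≠ 0 := by
    intro h
    have hv' : v = 22 := sub_eq_zero.mp h
    subst hv'
    apply hΔ
    have : Δ * 8000 = 0 := by linear_combination hv
    rcases mul_eq_zero.mp this with h | h
    · exact h
    · norm_num at h
  -- the key identity
  have hid : (v ^ 2 - 24 * v + 64) ^ 3 - 55296 * (v - 22) =
      (v ^ 2 + 16) * (v ^ 2 - 36 * v + 304) ^ 2 := by ring
  -- find δ
  have hδ : ∃ δ : K, δ ≠ 0 ∧ c4 = δ * (v ^ 2 - 24 * v + 64) ∧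
      c6 ^ 2 = δ ^ 3 * ((v ^ 2 + 16) * (v ^ 2 - 36 * v + 304) ^ 2) := by
    by_cases hc4 : c4 = 0
    · subst hc4
      have hq : v ^ 2 - 24 * v + 64 = 0 := by
        have : Δ * (v ^ 2 - 24 * v + 64) ^ 3 = 0 := by linear_combination hv
        rcases mul_eq_zero.mp this with h | h
        · exact absurd h hΔ
        · exact pow_eq_zero_iff (n := 3) (by norm_num) |>.mp h
      have hm : (v ^ 2 + 16) * (v ^ 2 - 36 * v + 304) ^ 2 ≠ 0 := by
        rw [← hid, hq]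
        have : (0 : K) ^ 3 - 55296 * (v - 22) = -55296 * (v - 22) := by ring
        rw [this]
        exact mul_ne_zero (by norm_num) hv22
      have hc6 : c6 ^ 2 ≠ 0 := by
        have : c6 ^ 2 = -1728 * Δ := by linear_combination hrel
        rw [this]
        exact mul_ne_zero (by norm_num) hΔ
      obtain ⟨δ, hδ⟩ := IsAlgClosed.exists_pow_nat_eq
        (c6 ^ 2 / ((v ^ 2 + 16) * (v ^ 2 - 36 * v + 304) ^ 2)) (n := 3) (by norm_num)
      refine ⟨δ, ?_, ?_, ?_⟩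
      · intro h0
        rw [h0] at hδ
        have : c6 ^ 2 / ((v ^ 2 + 16) * (v ^ 2 - 36 * v + 304) ^ 2) ≠ 0 := div_ne_zero hc6 hm
        exact this (by rw [← hδ]; ring)
      · rw [hq]; ring
      · rw [hδ, div_mul_cancel₀ _ hm]
    · have hq : v ^ 2 - 24 * v + 64 ≠ 0 := by
        intro hq
        rw [hq] at hv
        have : 32 * c4 ^ 3 * (v - 22) = 0 := by linear_combination -hv
        have h32 : (32 : K) * c4 ^ 3 ≠ 0 := mul_ne_zero (by norm_num) (pow_ne_zero 3 hc4)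
        exact (mul_ne_zero h32 hv22) this
      have hδq : c4 = c4 / (v ^ 2 - 24 * v + 64) * (v ^ 2 - 24 * v + 64) :=
        (div_mul_cancel₀ _ hq).symm
      generalize c4 / (v ^ 2 - 24 * v + 64) = δ at hδq
      have hδ0 : δ ≠ 0 := by
        rintro rfl
        exact hc4 (by rw [hδq]; ring)
      have hΔ' : Δ = 32 * δ ^ 3 * (v - 22) := by
        have h3 : (v ^ 2 - 24 * v + 64) ^ 3 * (Δ - 32 * δ ^ 3 * (v - 22)) = 0 := by
          rw [hδq] at hv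
          linear_combination hv
        rcases mul_eq_zero.mp h3 with h | h
        · exact absurd h (pow_ne_zero 3 hq)
        · exact sub_eq_zero.mp h
      refine ⟨δ, hδ0, hδq, ?_⟩
      rw [← hid]
      linear_combination hrel + (c4 ^ 2 + c4 * (δ * (v ^ 2 - 24 * v + 64)) +
        (δ * (v ^ 2 - 24 * v + 64)) ^ 2) * hδq - 1728 * hΔ'
  obtain ⟨δ, hδ0, hc4, hc6⟩ := hδ
  obtain ⟨β₀, hβ₀⟩ := IsAlgClosed.exists_pow_nat_eq (δ * (v ^ 2 + 16)) (n := 2) (by norm_num)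
  have hprod : (c6 + β₀ * δ * (v ^ 2 - 36 * v + 304)) *
      (c6 - β₀ * δ * (v ^ 2 - 36 * v + 304)) = 0 := by
    linear_combination hc6 - δ ^ 2 * (v ^ 2 - 36 * v + 304) ^ 2 * hβ₀
  rcases mul_eq_zero.mp hprod with h | h
  · exact ⟨v, δ, β₀, hδ0, hc4, by linear_combination h, hβ₀⟩
  · exact ⟨v, δ, -β₀, hδ0, hc4, by linear_combination h, by linear_combination hβ₀⟩


variable [IsAlgClosed K] [DecidableEq K] (W : WeierstrassCurve.Affine K)

/-- Over an algebraically closed field of characteristic zero, a Weierstrass curve with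
`Δ ≠ 0` has a nonzero point killed by `5`. -/
theorem exists_five_torsion (hΔ : W.Δ ≠ 0) :
    ∃ P : W.Point, P ≠ 0 ∧ (5 : ℕ) • P = 0 := by
  obtain ⟨v, δ, β, hδ0, hc4, hc6, hβ⟩ :=
    exists_normal_form_params W.c₄ W.c₆ W.Δ W.c_relation hΔ
  obtain ⟨r, hr⟩ := IsAlgClosed.exists_pow_nat_eq δ (n := 2) (by norm_num)
  have hr0 : r ≠ 0 := by
    rintro rfl
    exact hδ0 (by rw [← hr]; ring)
  obtain ⟨τ, hτ⟩ : ∃ τ : K, τ = (β - W.b₂) / 12 := ⟨_, rfl⟩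
  have ht : W.b₂ = β - 12 * τ := by rw [hτ]; ring
  have h1 : W.b₂ ^ 2 - 24 * W.b₄ = δ * (v ^ 2 - 24 * v + 64) := by rw [← hc4, c₄]
  have h2 : -W.b₂ ^ 3 + 36 * W.b₂ * W.b₄ - 216 * W.b₆ = -(β * δ * (v ^ 2 - 36 * v + 304)) := by
    rw [← hc6, c₆]
  obtain ⟨hd1, hn1⟩ := two_cycle_alg W.b₂ W.b₄ W.b₆ W.b₈ β δ v r τ ht h1 h2 W.b_relation hβ hr
  obtain ⟨hd2, hn2⟩ := two_cycle_alg W.b₂ W.b₄ W.b₆ W.b₈ β δ v (-r) τ ht h1 h2 W.b_relation hβ
    (by rw [neg_sq]; exact hr)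
  simp only [← sub_eq_add_neg, sub_neg_eq_add] at hd2 hn2
  have hprod : (β + v * r) * (β + v * -r) = 16 * δ := by linear_combination hβ - v ^ 2 * hr
  have h16 : (16 : K) * δ ≠ 0 := mul_ne_zero (by norm_num) hδ0
  have hf1 : β + v * r ≠ 0 := fun h => h16 (by rw [← hprod, h]; ring)
  have hf2 : β + v * -r ≠ 0 := fun h => h16 (by rw [← hprod, h]; ring)
  have hD1 : 4 * (τ + r) ^ 3 + W.b₂ * (τ + r) ^ 2 + 2 * W.b₄ * (τ + r) + W.b₆ ≠ 0 := by
    rw [hd1]; exact mul_ne_zero (mul_ne_zero (by norm_num) hδ0) hf1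
  have hD2 : 4 * (τ - r) ^ 3 + W.b₂ * (τ - r) ^ 2 + 2 * W.b₄ * (τ - r) + W.b₆ ≠ 0 := by
    rw [hd2]; exact mul_ne_zero (mul_ne_zero (by norm_num) hδ0) hf2
  obtain ⟨y, hy⟩ := exists_equation_of_isAlgClosed W (τ + r)
  have hns : W.Nonsingular (τ + r) y := (equation_iff_nonsingular_of_Δ_ne_zero hΔ).mp hy
  have hne : y ≠ W.negY (τ + r) y := by
    intro hyy
    apply hD1
    rw [← sub_negY_sq W hy, sub_eq_zero.mpr hyy]
    ring
  have hX2 : W.addX (τ + r) (τ + r) (W.slope (τ + r) (τ + r) y y) = τ - r := by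
    have e1 := addX_self_mul W hy hne
    have e2 : (W.addX (τ + r) (τ + r) (W.slope (τ + r) (τ + r) y y) - (τ - r)) *
        (4 * (τ + r) ^ 3 + W.b₂ * (τ + r) ^ 2 + 2 * W.b₄ * (τ + r) + W.b₆) = 0 := by
      linear_combination e1 + hn1
    rcases mul_eq_zero.mp e2 with h | h
    · exact sub_eq_zero.mp h
    · exact absurd h hD1
  refine ⟨Point.some _ _ hns, Point.some_ne_zero hns,
    five_nsmul_eq_zero_of_two_cycle W hns hne ?_ ?_ ?_⟩
  · rw [hX2]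
    intro h
    apply hr0
    have h2r : (2 : K) * r = 0 := by linear_combination -h
    rcases mul_eq_zero.mp h2r with h' | h'
    · norm_num at h'
    · exact h'
  · rw [hX2]; exact hD2
  · rw [hX2]; exact hn2

/-- The 5-torsion of a Weierstrass curve with `Δ ≠ 0` over an algebraically closed field
of characteristic zero is nontrivial. -/
theorem nontrivial_torsionBy_five (hΔ : W.Δ ≠ 0) :
    Nontrivial (Submodule.torsionBy ℤ W.Point ((5 : ℕ) : ℤ)) := by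
  obtain ⟨P, hP0, hP⟩ := exists_five_torsion W hΔ
  have hmem : P ∈ Submodule.torsionBy ℤ W.Point ((5 : ℕ) : ℤ) := by
    rw [Submodule.mem_torsionBy_iff, natCast_zsmul, hP]
  refine ⟨⟨⟨P, hmem⟩, 0, ?_⟩⟩
  intro h
  exact hP0 (congrArg Subtype.val h)

end Alg

/-- `E[5]` is nontrivial for the curve over `AlgebraicClosure ℚ` attached to an integral
Weierstrass model with nonzero discriminant. -/
theorem nontrivial_torsion_five (W : WeierstrassCurve ℤ) (hΔ : W.Δ ≠ 0) :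
    Nontrivial (Submodule.torsionBy ℤ
      ((W.map (Int.castRingHom ℚ)).toAffine⁄(AlgebraicClosure ℚ)).Point ((5 : ℕ) : ℤ)) := by
  apply nontrivial_torsionBy_five
  rw [WeierstrassCurve.Affine.baseChange, WeierstrassCurve.baseChange, WeierstrassCurve.map_Δ,
    WeierstrassCurve.map_Δ]
  simpa using hΔ

end Fermat.Agent.S51
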