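import Mathlib.Tactic.LinearCombination
import Mathlib.Tactic.FieldSimp
import Mathlib.Tactic.Ring
import Mathlib.Tactic.Linarith
import Mathlib.Tactic.NormNum
import Mathlib.Data.Rat.Defs
import Mathlib.Algebra.Order.Field.Basic
import Mathlib.RingTheory.Int.Basic
import Mathlib.RingTheory.PrincipalIdealDomain
import Mathlib.Data.Nat.Prime.Int

set_option autoImplicit false

namespace Fermat.Agent.S51.AlgCore

/-- Step A: translate `x ↦ x - s/2` to reach the normal form `b₆ = δ b₂`, `b₈ = 5δ² + δ b₄`. -/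
theorem normal_form (b2 b4 b6 b8 x0 s t : ℚ)
    (hb : 4 * b8 = b2 * b6 - b4 ^ 2)
    (h3 : 3 * x0 ^ 4 + b2 * x0 ^ 3 + 3 * b4 * x0 ^ 2 + 3 * b6 * x0 + b8 = 0)
    (hst : s ^ 2 - 4 * t ≠ 0)
    (hp : s ^ 4 - 8 * s ^ 2 * t + 10 * t ^ 2 - b2 * s * t - b4 * s ^ 2 - 2 * b4 * t
      - 3 * b6 * s - 2 * b8 = 0)
    (hm : s ^ 3 - 6 * s * t - b2 * t - b4 * s - b6 = 0) :
    ∃ δ B2 B4 xi : ℚ, δ ≠ 0 ∧
      B2 ^ 2 * δ = 20 * δ ^ 2 + 4 * δ * B4 + B4 ^ 2 ∧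
      3 * xi ^ 4 + B2 * xi ^ 3 + 3 * B4 * xi ^ 2 + 3 * (δ * B2) * xi + (5 * δ ^ 2 + δ * B4) = 0 ∧
      b2 ^ 2 - 24 * b4 = B2 ^ 2 - 24 * B4 ∧
      -b2 ^ 2 * b8 - 8 * b4 ^ 3 - 27 * b6 ^ 2 + 9 * b2 * b4 * b6 =
        -B2 ^ 2 * (5 * δ ^ 2 + δ * B4) - 8 * B4 ^ 3 - 27 * (δ * B2) ^ 2
          + 9 * B2 * B4 * (δ * B2) := by
  have hb6 : b6 = s ^ 3 - 6 * s * t - b2 * t - b4 * s := by linarith
  subst hb6
  have hb8 : b8 = (s ^ 4 - 8 * s ^ 2 * t + 10 * t ^ 2 - b2 * s * t - b4 * s ^ 2 - 2 * b4 * t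
      - 3 * (s ^ 3 - 6 * s * t - b2 * t - b4 * s) * s) / 2 := by linarith
  subst hb8
  refine ⟨(s ^ 2 - 4 * t) / 4, b2 + 6 * s, b4 + s / 2 * b2 + 6 * (s / 2) ^ 2, x0 - s / 2,
    div_ne_zero hst (by norm_num), ?_, ?_, ?_, ?_⟩
  · linear_combination (-1 : ℚ) * hb
  · linear_combination h3
  · ring
  · linear_combination (((b2 + 6 * s) ^ 2 - b2 ^ 2) / 4) * hb

/-- Step B: from the normal form to a rational point on `Y² = Z (Z - 1) (9 Z - 25)`. -/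
theorem curve_point (δ B2 B4 xi : ℚ) (hδ : δ ≠ 0)
    (hR : B2 ^ 2 * δ = 20 * δ ^ 2 + 4 * δ * B4 + B4 ^ 2)
    (hP : 3 * xi ^ 4 + B2 * xi ^ 3 + 3 * B4 * xi ^ 2 + 3 * (δ * B2) * xi
      + (5 * δ ^ 2 + δ * B4) = 0) :
    ∃ Z v Y : ℚ, Y ^ 2 = Z * (Z - 1) * (9 * Z - 25) ∧ Z ≠ 1 ∧
      (1 - Z) ^ 3 * v ^ 2 + 6 * (Z - 1) ^ 2 * (3 * Z + 1) * v + 9 * (Z - 1) ^ 4
        - 16 * Z * (Z + 3) ^ 2 = 0 ∧
      B2 ^ 2 - 24 * B4 = δ * (v ^ 2 - 24 * v + 64) ∧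
      -B2 ^ 2 * (5 * δ ^ 2 + δ * B4) - 8 * B4 ^ 3 - 27 * (δ * B2) ^ 2
          + 9 * B2 * B4 * (δ * B2) = 32 * δ ^ 3 * (v - 22) := by
  obtain ⟨v, hv⟩ : ∃ v : ℚ, v = B4 / δ + 2 := ⟨_, rfl⟩
  obtain ⟨Z, hZ⟩ : ∃ Z : ℚ, Z = xi ^ 2 / δ := ⟨_, rfl⟩
  obtain ⟨T, hT⟩ : ∃ T : ℚ, T = B2 * xi / δ := ⟨_, rfl⟩
  have hB4 : B4 = δ * (v - 2) := by rw [hv]; field_simp; ring
  have hxi : xi ^ 2 = δ * Z := by rw [hZ]; field_simp
  have hTx : B2 * xi = δ * T := by rw [hT]; field_simp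
  have hB2 : B2 ^ 2 = δ * (v ^ 2 + 16) := by
    have : B2 ^ 2 * δ = δ * (v ^ 2 + 16) * δ := by rw [hR, hB4]; ring
    exact mul_right_cancel₀ hδ this
  have h1 : T ^ 2 = (v ^ 2 + 16) * Z := by
    have : δ ^ 2 * T ^ 2 = δ ^ 2 * ((v ^ 2 + 16) * Z) := by
      calc δ ^ 2 * T ^ 2 = (δ * T) ^ 2 := by ring
        _ = B2 ^ 2 * xi ^ 2 := by rw [← hTx]; ring
        _ = δ ^ 2 * ((v ^ 2 + 16) * Z) := by rw [hB2, hxi]; ring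
    exact mul_left_cancel₀ (pow_ne_zero 2 hδ) this
  have h2 : T * (Z + 3) + 3 * Z ^ 2 + 3 * (v - 2) * Z + v + 3 = 0 := by
    have : δ ^ 2 * (T * (Z + 3) + 3 * Z ^ 2 + 3 * (v - 2) * Z + v + 3) = δ ^ 2 * 0 := by
      rw [mul_zero, ← hP, hB4]
      have e4 : xi ^ 4 = (δ * Z) ^ 2 := by rw [← hxi]; ring
      have e3 : B2 * xi ^ 3 = δ * T * (δ * Z) := by rw [← hxi, ← hTx]; ring
      linear_combination (-3 : ℚ) * e4 - e3 - 3 * δ * (v - 2) * hxi - 3 * δ * hTx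
    exact mul_left_cancel₀ (pow_ne_zero 2 hδ) this
  have hQ : (1 - Z) ^ 3 * v ^ 2 + 6 * (Z - 1) ^ 2 * (3 * Z + 1) * v + 9 * (Z - 1) ^ 4
        - 16 * Z * (Z + 3) ^ 2 = 0 := by
    linear_combination ((Z + 3) ^ 2) * h1
      + (3 * Z ^ 2 + 3 * (v - 2) * Z + v + 3 - T * (Z + 3)) * h2
  have hZ1 : Z ≠ 1 := by
    rintro rfl
    norm_num at hQ
  have hZ3 : Z + 3 ≠ 0 := by
    intro h
    have hZ' : Z = -3 := by linarith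
    rw [hZ'] at h1
    nlinarith [sq_nonneg T, sq_nonneg v]
  have hZ1' : Z - 1 ≠ 0 := sub_ne_zero.mpr hZ1
  refine ⟨Z, v, ((1 - Z) ^ 3 * v + 3 * (Z - 1) ^ 2 * (3 * Z + 1)) / ((Z - 1) * (Z + 3)),
    ?_, hZ1, hQ, ?_, ?_⟩
  · rw [div_pow, div_eq_iff (pow_ne_zero 2 (mul_ne_zero hZ1' hZ3))]
    linear_combination ((1 - Z) ^ 3) * hQ
  · rw [hB2, hB4]; ring
  · rw [show -B2 ^ 2 * (5 * δ ^ 2 + δ * B4) - 8 * B4 ^ 3 - 27 * (δ * B2) ^ 2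
          + 9 * B2 * B4 * (δ * B2) = B2 ^ 2 * (-(5 * δ ^ 2 + δ * B4) - 27 * δ ^ 2 + 9 * B4 * δ)
            - 8 * B4 ^ 3 by ring, hB2, hB4]
    ring

/-- Step D: the four non-cuspidal rational points give four explicit `j`-invariants. -/
theorem final_cases (Z v δ c4 Δ : ℚ) (hZ : Z = 0 ∨ Z = 25 / 9 ∨ Z = 5 ∨ Z = 5 / 9)
    (hQ : (1 - Z) ^ 3 * v ^ 2 + 6 * (Z - 1) ^ 2 * (3 * Z + 1) * v + 9 * (Z - 1) ^ 4
        - 16 * Z * (Z + 3) ^ 2 = 0)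
    (hc4 : c4 = δ * (v ^ 2 - 24 * v + 64)) (hΔ : Δ = 32 * δ ^ 3 * (v - 22)) (hΔ0 : Δ ≠ 0) :
    32 * c4 ^ 3 = -121945 * Δ ∨ 2 * c4 ^ 3 = -25 * Δ ∨ 8 * c4 ^ 3 = -349938025 * Δ ∨
      32768 * c4 ^ 3 = 46969655 * Δ := by
  have hv22 : v - 22 ≠ 0 := by
    rintro h
    rw [h, mul_zero] at hΔ
    exact hΔ0 hΔ
  rcases hZ with rfl | rfl | rfl | rfl
  · -- Z = 0 : (v + 3)² = 0
    have hv : v = -3 := by
      have : (v + 3) ^ 2 = 0 := by linear_combination hQ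
      have := pow_eq_zero_iff (two_ne_zero) |>.mp this
      linarith
    left
    rw [hc4, hΔ, hv]; ring
  · -- Z = 25/9 : (4 v - 63)² = 0
    have hv : v = 63 / 4 := by
      have : (4 * v - 63) ^ 2 = 0 := by linear_combination (-729 / 256 : ℚ) * hQ
      have := pow_eq_zero_iff (two_ne_zero) |>.mp this
      linarith
    right; right; right
    rw [hc4, hΔ, hv]; ring
  · -- Z = 5 : (v - 2)(v - 22) = 0
    have hv : v = 2 := by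
      have : (v - 2) * (v - 22) = 0 := by linear_combination (-1 / 64 : ℚ) * hQ
      rcases mul_eq_zero.mp this with h | h
      · linarith
      · exact absurd h hv22
    right; left
    rw [hc4, hΔ, hv]; ring
  · -- Z = 5/9 : (v + 58)(v - 22) = 0
    have hv : v = -58 := by
      have : (v + 58) * (v - 22) = 0 := by linear_combination (729 / 64 : ℚ) * hQ
      rcases mul_eq_zero.mp this with h | h
      · linarith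
      · exact absurd h hv22
    right; right; left
    rw [hc4, hΔ, hv]; ring

/-- Arithmetic step: `m c³ = n Δ` with `5 ∣ n`, `5 ∤ m`, `125 ∤ n` forces `5 ∣ c` and `5 ∣ Δ`. -/
theorem five_dvd_of_rel (m n c D : ℤ) (h : m * c ^ 3 = n * D) (hn : (5 : ℤ) ∣ n)
    (hm : ¬ (5 : ℤ) ∣ m) (hn' : ¬ (125 : ℤ) ∣ n) : (5 : ℤ) ∣ c ∧ (5 : ℤ) ∣ D := by
  have p5 : Prime (5 : ℤ) := by
    have := Nat.prime_iff_prime_int.mp Nat.prime_five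
    simpa using this
  have hc : (5 : ℤ) ∣ c := by
    have h1 : (5 : ℤ) ∣ m * c ^ 3 := h ▸ Dvd.dvd.mul_right hn D
    rcases p5.dvd_or_dvd h1 with h2 | h2
    · exact absurd h2 hm
    · exact p5.dvd_of_dvd_pow h2
  refine ⟨hc, ?_⟩
  by_contra hD
  have hcop : IsCoprime (5 : ℤ) D := (p5.irreducible.coprime_iff_not_dvd).mpr hD
  have hcop' : IsCoprime ((5 : ℤ) ^ 3) D := hcop.pow_left
  have h125 : ((5 : ℤ) ^ 3) ∣ n * D := by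
    rw [← h]
    exact Dvd.dvd.mul_left (pow_dvd_pow_of_dvd hc 3) m
  have : ((5 : ℤ) ^ 3) ∣ n := hcop'.dvd_of_dvd_mul_right h125
  exact hn' (by norm_num at this; exact this)

/-- Arithmetic conclusion from the four `j`-invariants. -/
theorem five_dvd_of_cases (c D : ℤ)
    (h : 32 * (c : ℚ) ^ 3 = -121945 * D ∨ 2 * (c : ℚ) ^ 3 = -25 * D ∨
      8 * (c : ℚ) ^ 3 = -349938025 * D ∨ 32768 * (c : ℚ) ^ 3 = 46969655 * D) :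
    (5 : ℤ) ∣ c ∧ (5 : ℤ) ∣ D := by
  rcases h with h | h | h | h
  · exact five_dvd_of_rel 32 (-121945) c D (by exact_mod_cast h) (by norm_num) (by norm_num)
      (by norm_num)
  · exact five_dvd_of_rel 2 (-25) c D (by exact_mod_cast h) (by norm_num) (by norm_num)
      (by norm_num)
  · exact five_dvd_of_rel 8 (-349938025) c D (by exact_mod_cast h) (by norm_num) (by norm_num)
      (by norm_num)
  · exact five_dvd_of_rel 32768 46969655 c D (by exact_mod_cast h) (by norm_num) (by norm_num)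
      (by norm_num)

/-- **Algebraic core of S51.**  Integers `b₂, b₄, b₆, b₈` with the `b`-relation and nonzero
discriminant, a rational root `x0` of the 3-division polynomial and the rational symmetric
functions `s, t` of a 2-cycle of the duplication map force `5 ∣ c₄` and `5 ∣ Δ`, given the
determination of the rational points of `Y² = Z (Z - 1) (9 Z - 25)`. -/
theorem five_dvd_c4_and_disc
    (hB : ∀ Z Y : ℚ, Y ^ 2 = Z * (Z - 1) * (9 * Z - 25) →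
      Z = 0 ∨ Z = 1 ∨ Z = 25 / 9 ∨ Z = 5 ∨ Z = 5 / 9)
    (b2 b4 b6 b8 : ℤ) (x0 s t : ℚ)
    (hb : 4 * b8 = b2 * b6 - b4 ^ 2)
    (hΔ : -b2 ^ 2 * b8 - 8 * b4 ^ 3 - 27 * b6 ^ 2 + 9 * b2 * b4 * b6 ≠ 0)
    (h3 : 3 * x0 ^ 4 + (b2 : ℚ) * x0 ^ 3 + 3 * (b4 : ℚ) * x0 ^ 2 + 3 * (b6 : ℚ) * x0
      + (b8 : ℚ) = 0)
    (hst : s ^ 2 - 4 * t ≠ 0)
    (hp : s ^ 4 - 8 * s ^ 2 * t + 10 * t ^ 2 - (b2 : ℚ) * s * t - (b4 : ℚ) * s ^ 2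
      - 2 * (b4 : ℚ) * t - 3 * (b6 : ℚ) * s - 2 * (b8 : ℚ) = 0)
    (hm : s ^ 3 - 6 * s * t - (b2 : ℚ) * t - (b4 : ℚ) * s - (b6 : ℚ) = 0) :
    (5 : ℤ) ∣ b2 ^ 2 - 24 * b4 ∧
      (5 : ℤ) ∣ -b2 ^ 2 * b8 - 8 * b4 ^ 3 - 27 * b6 ^ 2 + 9 * b2 * b4 * b6 := by
  have hbQ : 4 * (b8 : ℚ) = (b2 : ℚ) * (b6 : ℚ) - (b4 : ℚ) ^ 2 := by exact_mod_cast hb
  obtain ⟨δ, B2, B4, xi, hδ, hR, hP, hc4, hD⟩ :=
    normal_form (b2 : ℚ) (b4 : ℚ) (b6 : ℚ) (b8 : ℚ) x0 s t hbQ h3 hst hp hm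
  obtain ⟨Z, v, Y, hY, hZ1, hQ, hc4', hD'⟩ := curve_point δ B2 B4 xi hδ hR hP
  have hZ : Z = 0 ∨ Z = 25 / 9 ∨ Z = 5 ∨ Z = 5 / 9 := by
    rcases hB Z Y hY with h | h | h | h | h
    · exact Or.inl h
    · exact absurd h hZ1
    · exact Or.inr (Or.inl h)
    · exact Or.inr (Or.inr (Or.inl h))
    · exact Or.inr (Or.inr (Or.inr h))
  have hΔQ : ((-b2 ^ 2 * b8 - 8 * b4 ^ 3 - 27 * b6 ^ 2 + 9 * b2 * b4 * b6 : ℤ) : ℚ) ≠ 0 := by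
    exact_mod_cast hΔ
  have key := final_cases Z v δ ((b2 ^ 2 - 24 * b4 : ℤ) : ℚ)
    ((-b2 ^ 2 * b8 - 8 * b4 ^ 3 - 27 * b6 ^ 2 + 9 * b2 * b4 * b6 : ℤ) : ℚ) hZ hQ
    (by push_cast; rw [hc4, hc4']) (by push_cast; rw [hD, hD']) hΔQ
  exact five_dvd_of_cases _ _ key

end Fermat.Agent.S51.AlgCore
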