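import Mathlib
import Fermat.Prelude.Def_FLTPrelim_GaloisRep

set_option autoImplicit false

namespace Fermat.Agent.S51

open WeierstrassCurve WeierstrassCurve.Affine Polynomial

section Field

variable {F : Type*} [Field F] (W : WeierstrassCurve.Affine F)

/-- `(2y + a₁x + a₃)² = 4x³ + b₂x² + 2b₄x + b₆` on the curve. -/
theorem sub_negY_sq {x y : F} (h : W.Equation x y) :
    (y - W.negY x y) ^ 2 = 4 * x ^ 3 + W.b₂ * x ^ 2 + 2 * W.b₄ * x + W.b₆ := by
  rw [equation_iff] at h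
  simp only [negY, b₂, b₄, b₆]
  linear_combination 4 * h

/-- Bezout identity: a common root of `Ψ₃` and `Ψ₂Sq` forces `Δ = 0`. -/
theorem psi2sq_ne_zero_of_psi3 (hΔ : W.Δ ≠ 0) {x : F}
    (h3 : 3 * x ^ 4 + W.b₂ * x ^ 3 + 3 * W.b₄ * x ^ 2 + 3 * W.b₆ * x + W.b₈ = 0) :
    4 * x ^ 3 + W.b₂ * x ^ 2 + 2 * W.b₄ * x + W.b₆ ≠ 0 := by
  intro hd
  apply hΔ
  have hb := W.b_relation
  simp only [WeierstrassCurve.Δ]
  linear_combination (48 * x ^ 2 + 8 * W.b₂ * x + 32 * W.b₄ - W.b₂ ^ 2) * h3 +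
    (-36 * x ^ 3 - 9 * W.b₂ * x ^ 2 + (W.b₂ ^ 2 - 42 * W.b₄) * x + W.b₂ * W.b₄ - 27 * W.b₆) * hd
    + (-12 * x ^2 - 2 * W.b₂ * x - 8 * W.b₄) * hb

/-- Every `x` is the x-coordinate of a point over an algebraically closed field. -/
theorem exists_equation_of_isAlgClosed [IsAlgClosed F] (x : F) : ∃ y : F, W.Equation x y := by
  obtain ⟨y, hy⟩ := IsAlgClosed.exists_root
    (C 1 * X ^ 2 + C (W.a₁ * x + W.a₃) * X + C (-(x ^ 3 + W.a₂ * x ^ 2 + W.a₄ * x + W.a₆)) : F[X])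
    (by rw [degree_quadratic one_ne_zero]; decide)
  refine ⟨y, ?_⟩
  rw [equation_iff]
  simp only [IsRoot.def, eval_add, eval_pow, eval_X, eval_mul, eval_C] at hy
  linear_combination hy

/-- Existence of a root of the 3-division polynomial. -/
theorem exists_root_psi3 [IsAlgClosed F] (h3 : (3 : F) ≠ 0) :
    ∃ x : F, 3 * x ^ 4 + W.b₂ * x ^ 3 + 3 * W.b₄ * x ^ 2 + 3 * W.b₆ * x + W.b₈ = 0 := by
  obtain ⟨x, hx⟩ := IsAlgClosed.exists_root W.Ψ₃
    (by
      rw [degree_eq_natDegree (W.Ψ₃_ne_zero h3), W.natDegree_Ψ₃ h3]; decide)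
  refine ⟨x, ?_⟩
  simp only [Ψ₃, IsRoot.def, eval_add, eval_pow, eval_X, eval_mul, eval_C, eval_ofNat] at hx
  linear_combination hx

variable [DecidableEq F]

/-- x-coordinate duplication formula, cleared of denominators. -/
theorem addX_self_mul {x y : F} (h : W.Equation x y) (hy : y ≠ W.negY x y) :
    W.addX x x (W.slope x x y y) * (4 * x ^ 3 + W.b₂ * x ^ 2 + 2 * W.b₄ * x + W.b₆) =
      x ^ 4 - W.b₄ * x ^ 2 - 2 * W.b₆ * x - W.b₈ := by
  have hD : y - W.negY x y ≠ 0 := sub_ne_zero.mpr hy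
  have key : W.slope x x y y * (y - W.negY x y) = 3 * x ^ 2 + 2 * W.a₂ * x + W.a₄ - W.a₁ * y := by
    rw [slope_of_Y_ne rfl hy, div_mul_cancel₀ _ hD]
  rw [← sub_negY_sq W h]
  generalize W.slope x x y y = ℓ at key
  rw [equation_iff] at h
  simp only [addX, negY, b₄, b₆, b₈] at *
  linear_combination (-(W.a₁ ^ 2 + 4 * W.a₂) - 8 * x) * h +
    (ℓ * (y - (-y - W.a₁ * x - W.a₃)) + (3 * x ^ 2 + 2 * W.a₂ * x + W.a₄ - W.a₁ * y) +
      W.a₁ * (y - (-y - W.a₁ * x - W.a₃))) * key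

/-- A point whose x-coordinate is a root of the 3-division polynomial and which is not
2-torsion satisfies `P + P = -P`. -/
theorem add_self_eq_neg_of_psi3 {x y : F} (h : W.Nonsingular x y) (hy : y ≠ W.negY x y)
    (h3 : 3 * x ^ 4 + W.b₂ * x ^ 3 + 3 * W.b₄ * x ^ 2 + 3 * W.b₆ * x + W.b₈ = 0) :
    Point.some x y h + Point.some x y h = -Point.some x y h := by
  have hD : y - W.negY x y ≠ 0 := sub_ne_zero.mpr hy
  have hd : 4 * x ^ 3 + W.b₂ * x ^ 2 + 2 * W.b₄ * x + W.b₆ ≠ 0 := by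
    rw [← sub_negY_sq W h.1]; exact pow_ne_zero 2 hD
  have hX : W.addX x x (W.slope x x y y) = x := by
    have h1 := addX_self_mul W h.1 hy
    have h2 : (W.addX x x (W.slope x x y y) - x) *
        (4 * x ^ 3 + W.b₂ * x ^ 2 + 2 * W.b₄ * x + W.b₆) = 0 := by
      linear_combination h1 - h3
    rcases mul_eq_zero.mp h2 with h4 | h4
    · exact sub_eq_zero.mp h4
    · exact absurd h4 hd
  rw [Point.add_self_of_Y_ne hy, Point.neg_some, Point.some.injEq]
  refine ⟨hX, ?_⟩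
  simp only [addY, negAddY, hX]
  simp

/-- Over an algebraically closed field in which `3 ≠ 0`, a Weierstrass curve with `Δ ≠ 0`
has a nonzero point `P` with `P + P = -P`. -/
theorem exists_three_torsion [IsAlgClosed F] (h3 : (3 : F) ≠ 0) (hΔ : W.Δ ≠ 0) :
    ∃ P : W.Point, P ≠ 0 ∧ P + P = -P := by
  obtain ⟨x, hx⟩ := exists_root_psi3 W h3
  obtain ⟨y, hy⟩ := exists_equation_of_isAlgClosed W x
  have hns : W.Nonsingular x y := (equation_iff_nonsingular_of_Δ_ne_zero hΔ).mp hy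
  have hd := psi2sq_ne_zero_of_psi3 W hΔ hx
  have hne : y ≠ W.negY x y := by
    intro hyy
    apply hd
    rw [← sub_negY_sq W hy, sub_eq_zero.mpr hyy]
    ring
  exact ⟨Point.some x y hns, Point.some_ne_zero hns, add_self_eq_neg_of_psi3 W hns hne hx⟩

/-- The 3-torsion of a Weierstrass curve with `Δ ≠ 0` over an algebraically closed field
in which `3 ≠ 0` is nontrivial. -/
theorem nontrivial_torsionBy_three [IsAlgClosed F] (h3 : (3 : F) ≠ 0) (hΔ : W.Δ ≠ 0) :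
    Nontrivial (Submodule.torsionBy ℤ W.Point ((3 : ℕ) : ℤ)) := by
  obtain ⟨P, hP0, hP⟩ := exists_three_torsion W h3 hΔ
  have hmem : P ∈ Submodule.torsionBy ℤ W.Point ((3 : ℕ) : ℤ) := by
    rw [Submodule.mem_torsionBy_iff, natCast_zsmul, show (3 : ℕ) = 2 + 1 from rfl, add_nsmul,
      two_nsmul, one_nsmul, hP, neg_add_cancel]
  refine ⟨⟨⟨P, hmem⟩, 0, ?_⟩⟩
  intro h
  exact hP0 (congrArg Subtype.val h)

end Field

/-- `E[3]` is nontrivial for the curve over `AlgebraicClosure ℚ` attached to an integral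
Weierstrass model with nonzero discriminant. -/
theorem nontrivial_torsion_three (W : WeierstrassCurve ℤ) (hΔ : W.Δ ≠ 0) :
    Nontrivial (Submodule.torsionBy ℤ
      ((W.map (Int.castRingHom ℚ)).toAffine⁄(AlgebraicClosure ℚ)).Point ((3 : ℕ) : ℤ)) := by
  apply nontrivial_torsionBy_three
  · exact three_ne_zero
  · rw [WeierstrassCurve.Affine.baseChange, WeierstrassCurve.baseChange, WeierstrassCurve.map_Δ,
      WeierstrassCurve.map_Δ]
    simpa using hΔ

end Fermat.Agent.S51
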